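import Fermat.Agent.LT.B8.Global

/-!
# Almost all places are good

`GoodAt` : the levels are maximal, the kernels are the identity kernels, the places over `v` are
unramified, `δ` is integral and invertible over `v`, `g` is integral, invertible, and not scalar
modulo `v`. All but finitely many `v` are good for a given pair `(δ, g)`.
-/

set_option autoImplicit false

noncomputable section

open IsDedekindDomain NumberField Function Set
open scoped WithZero Pointwise

namespace Fermat.Agent.LT.B8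

open Fermat.Agent.LT.Ext Fermat.Agent.LT.Lvl Fermat.Agent.CFT.SUnits

section Ram

variable {K L : Type*} [Field K] [Field L] [NumberField K] [NumberField L] [Algebra K L]
  (G : Type*) [Group G] [Finite G] [MulSemiringAction G L] [IsGaloisGroup G K L]

theorem finite_mem {d : 𝓞 L} (hd : d ≠ 0) :
    {w : HeightOneSpectrum (𝓞 L) | d ∈ w.asIdeal}.Finite := by
  have h := Ideal.finite_factors (R := 𝓞 L) (I := Ideal.span {d}) (by
    rwa [Ne, Ideal.zero_eq_bot, Ideal.span_singleton_eq_bot])
  refine h.subset fun w hw => ?_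
  show w.asIdeal ∣ Ideal.span {d}
  rw [Ideal.dvd_span_singleton]
  exact hw

omit [NumberField K] [Finite G] in
include K in
/-- A non-trivial element of the Galois group moves an integer. -/
theorem exists_int_smul_ne {σ : G} (hσ : σ ≠ 1) : ∃ x : 𝓞 L, σ • x - x ≠ 0 := by
  by_contra hcon
  push Not at hcon
  have hfa : FaithfulSMul G L := IsGaloisGroup.faithful K
  refine hσ (eq_of_smul_eq_smul (α := L) fun y => ?_)
  rw [one_smul]
  obtain ⟨a, b, hb, rfl⟩ := IsFractionRing.div_surjective (A := 𝓞 L) y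
  have h1 : ∀ x : 𝓞 L, σ • algebraMap (𝓞 L) L x = algebraMap (𝓞 L) L x := fun x => by
    have := hcon x
    rw [sub_eq_zero] at this
    conv_rhs => rw [← this]
    rfl
  rw [smul_div₀', h1, h1]

include G in
/-- Almost all places of `L` are unramified over `K`. -/
theorem finite_ramified :
    {v : HeightOneSpectrum (𝓞 K) | ∃ w : Above L v,
      v.asIdeal.ramificationIdx' w.1.asIdeal ≠ 1}.Finite := by
  classical
  have : Fintype G := Fintype.ofFinite G
  have hex : ∀ σ : G, σ ≠ 1 → ∃ x : 𝓞 L, σ • x - x ≠ 0 := fun σ hσ =>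
    exists_int_smul_ne (K := K) G hσ
  choose! x hx using hex
  have hfin : (⋃ σ ∈ {σ : G | σ ≠ 1},
      {w : HeightOneSpectrum (𝓞 L) | σ • x σ - x σ ∈ w.asIdeal}).Finite :=
    (Set.toFinite _).biUnion fun σ hσ => finite_mem (hx σ hσ)
  refine (hfin.image fun w => under K w).subset ?_
  rintro v ⟨w, hw⟩
  refine ⟨w.1, ?_, (under_eq_iff K w.1 v).mpr w.2⟩
  by_contra hcon
  simp only [mem_iUnion, mem_ofPred_eq, not_exists] at hcon
  apply hw
  have hin : w.1.asIdeal.inertia G = ⊥ := by
    rw [Subgroup.eq_bot_iff_forall]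
    intro σ hσ
    by_contra h1
    exact hcon σ h1 (hσ (x σ))
  rw [Ideal.ramificationIdx'_eq_ramificationIdx v.asIdeal w.1.asIdeal v.ne_bot,
    ← Ideal.ramificationIdxIn_eq_ramificationIdx v.asIdeal w.1.asIdeal G,
    ← Ideal.card_inertia_eq_ramificationIdxIn (G := G) v.asIdeal w.1.asIdeal, hin,
    Subgroup.card_bot]

end Ram

section Good

variable {K L : Type*} [Field K] [Field L] [NumberField K] [NumberField L] [Algebra K L]
  (U : Lev L) (UK : Lev K)
  (φ : ∀ v : HeightOneSpectrum (𝓞 K), DA U v → DA U v → ℂ)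
  (f : ∀ v : HeightOneSpectrum (𝓞 K), Dv UK v → Dv UK v → ℂ)

/-- `v` is good for the pair `(δ, g)`. -/
structure GoodAt (δ : GL (Fin 2) L) (g : GL (Fin 2) K) (v : HeightOneSpectrum (𝓞 K)) :
    Prop where
  levK : UK.U v = GLO (Valued.v : Valuation (v.adicCompletion K) ℤᵐ⁰)
  levL : ∀ w : Above L v, U.U w.1 = GLO (Valued.v : Valuation (w.1.adicCompletion L) ℤᵐ⁰)
  kerL : φ v = idK
  kerK : f v = idK
  unr : ∀ w : Above L v, v.asIdeal.ramificationIdx' w.1.asIdeal = 1
  del : ∀ w : Above L v, gmap w.1 δ ∈ GLO (Valued.v : Valuation (w.1.adicCompletion L) ℤᵐ⁰)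
  gam : gmap v g ∈ GLO (Valued.v : Valuation (v.adicCompletion K) ℤᵐ⁰)
  nsc : Valued.v (gmap v g 0 1) = 1 ∨ Valued.v (gmap v g 1 0) = 1 ∨
    Valued.v (gmap v g 0 0 - gmap v g 1 1) = 1

omit [NumberField L] [Algebra K L] [Field L] in
theorem finite_val_ne_one {x : K} (hx : x ≠ 0) :
    {v : HeightOneSpectrum (𝓞 K) |
      Valued.v (algebraMap K (v.adicCompletion K) x) ≠ 1}.Finite := by
  refine ((HeightOneSpectrum.Support.finite (𝓞 K) x).union
    (HeightOneSpectrum.Support.finite (𝓞 K) x⁻¹)).subset fun v hv => ?_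
  by_contra hcon
  simp only [mem_union, not_or] at hcon
  have h1 : v.valuation K x ≤ 1 := by
    by_contra h
    exact hcon.1 (not_le.mp h)
  have h2 : v.valuation K x⁻¹ ≤ 1 := by
    by_contra h
    exact hcon.2 (not_le.mp h)
  refine hv ?_
  have h3 : Valued.v (algebraMap K (v.adicCompletion K) x) = v.valuation K x :=
    HeightOneSpectrum.valuedAdicCompletion_eq_valuation' v x
  rw [h3]
  refine le_antisymm h1 ?_
  rw [map_inv₀] at h2
  have h0 : v.valuation K x ≠ 0 := (Valuation.ne_zero_iff _).mpr hx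
  exact (inv_le_one₀ (zero_lt_iff.mpr h0)).mp h2

omit [NumberField K] [NumberField L] in
theorem finite_image_above {S : Set (HeightOneSpectrum (𝓞 L))} (hS : S.Finite) :
    {v : HeightOneSpectrum (𝓞 K) | ∃ w : Above L v, w.1 ∈ S}.Finite := by
  refine (hS.image fun w => under K w).subset ?_
  rintro v ⟨w, hw⟩
  exact ⟨w.1, hw, (under_eq_iff K w.1 v).mpr w.2⟩

/-- **Almost all places are good.** -/
theorem finite_not_goodAt (G : Type*) [Group G] [Finite G] [MulSemiringAction G L]
    [IsGaloisGroup G K L] (hφ : {v | φ v ≠ idK}.Finite) (hf : {v | f v ≠ idK}.Finite)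
    (δ : GL (Fin 2) L) {g : GL (Fin 2) K} (hg : Ell (g : M2 K)) :
    {v | ¬ GoodAt U UK φ f δ g v}.Finite := by
  have h1 := finite_ramified (K := K) (L := L) G
  have h2 := finite_image_above (K := K) U.ae
  have h3 := finite_image_above (K := K) (finite_not_mem_GLO δ)
  have h4 := finite_not_mem_GLO g
  have h5 : {v : HeightOneSpectrum (𝓞 K) | ¬ (Valued.v (gmap v g 0 1) = 1 ∨
      Valued.v (gmap v g 1 0) = 1 ∨ Valued.v (gmap v g 0 0 - gmap v g 1 1) = 1)}.Finite := by
    have hns := hg.not_isScal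
    rw [isScal_iff] at hns
    by_cases h01 : (g : M2 K) 0 1 = 0
    · by_cases h10 : (g : M2 K) 1 0 = 0
      · have h00 : (g : M2 K) 0 0 - (g : M2 K) 1 1 ≠ 0 := by
          intro h
          exact hns ⟨h01, h10, sub_eq_zero.mp h⟩
        refine (finite_val_ne_one h00).subset fun v hv hc => hv (Or.inr (Or.inr ?_))
        rw [gmap_apply, gmap_apply, ← map_sub]
        exact hc
      · exact (finite_val_ne_one h10).subset fun v hv hc => hv (Or.inr (Or.inl hc))
    · exact (finite_val_ne_one h01).subset fun v hv hc => hv (Or.inl hc)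
  refine ((((((((UK.ae.union h2).union hφ).union hf).union h1).union h3).union h4).union
    h5)).subset fun v hv => ?_
  by_contra hcon
  simp only [mem_union, mem_ofPred_eq, not_or, not_not, not_exists] at hcon
  obtain ⟨⟨⟨⟨⟨⟨⟨c1, c2⟩, c3⟩, c4⟩, c5⟩, c6⟩, c7⟩, c8⟩ := hcon
  refine hv ⟨c1, fun w => ?_, c3, c4, fun w => ?_, fun w => ?_, c7, ?_⟩
  · exact c2 w
  · exact c5 w
  · exact c6 w
  · by_contra h
    exact h (by tauto)

end Good

end Fermat.Agent.LT.B8

end
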