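import Fermat.Agent.LT.B8.Split
import Fermat.Agent.LT.MatchUnit

/-!
# The comparison on the discrete part: main theorem

`exists_push_main` : only the local comparison `LocPush` at every place is needed, for kernels
which are the identity kernels at almost all places.
-/

set_option autoImplicit false

noncomputable section

open IsDedekindDomain NumberField Function Set
open scoped WithZero Pointwise

namespace Fermat.Agent.LT.B8

open Fermat.Agent.LT.Ext Fermat.Agent.LT.Lvl Fermat.Agent.LT.Dict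

variable {K L : Type*} [Field K] [Field L] [NumberField K] [NumberField L] [Algebra K L]
  [IsGalois K L] {U : Lev L} (hU : GStable (L ≃ₐ[K] L) U.U) (UK : Lev K) {τ : L ≃ₐ[K] L}
  (φ : ∀ v : HeightOneSpectrum (𝓞 K), DA U v → DA U v → ℂ)
  (f : ∀ v : HeightOneSpectrum (𝓞 K), Dv UK v → Dv UK v → ℂ)

variable {UK φ f}

/-- **The local comparison at a good place.** -/
theorem Rep.locPush₁ {δ : GL (Fin 2) L} {g : GL (Fin 2) K} (hr : Rep τ δ g) (hτ : Cyc3 τ)
    (h3 : Module.finrank K L = 3) {v : HeightOneSpectrum (𝓞 K)}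
    (hv : GoodAt U UK φ f δ g v) : LocPush₁ hU UK τ v δ g (φ v) (f v) := by
  have hG : Nat.card (L ≃ₐ[K] L) = 3 := by rw [IsGalois.card_aut_eq_finrank, h3]
  obtain ⟨w₀⟩ : Nonempty (Above L v) := inferInstance
  rcases split_or_nonSplit hG w₀ with hw | hw
  · exact locPush₁_split hU (isThree_of_cyc3 hτ) hw hr hv
  · exact hr.locPush₁_unit hU UK hG (isThree_of_cyc3 hτ).ne_one hw hv

variable (UK φ f)

/-- The cases in which the local comparison is known: `v` splits and `φ` is a product, or `v` has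
one place above, unramified, with maximal levels and identity kernels. -/
inductive LocCase (τ : L ≃ₐ[K] L) (v : HeightOneSpectrum (𝓞 K)) : Prop
  | split (w₀ : Above L v) (hw : MulAction.stabilizer (L ≃ₐ[K] L) w₀.1 = ⊥)
      (k : ∀ w : HeightOneSpectrum (𝓞 L), Lvl.Dv U w → Lvl.Dv U w → ℂ)
      (hB : BaseLevel (UK.U v) U.U)
      (hf : ∀ (w : Above L v) (g : GL (Fin 2) (w.1.adicCompletion L)) x y,
        k w.1 (g • x) (g • y) = k w.1 x y)
      (hrow : ∀ (w : Above L v) x, (support (k w.1 x)).Finite)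
      (hφ : φ v = kA k v) (hk : f v = kK k τ hB w₀)
  | unit (w₀ : Above L v) (hw : MulAction.stabilizer (L ≃ₐ[K] L) w₀.1 = ⊤)
      (he : v.asIdeal.ramificationIdx' w₀.1.asIdeal = 1)
      (hL : U.U w₀.1 = GLO (Valued.v : Valuation (w₀.1.adicCompletion L) ℤᵐ⁰))
      (hK : UK.U v = GLO (Valued.v : Valuation (v.adicCompletion K) ℤᵐ⁰))
      (hφ : φ v = idK) (hk : f v = idK)
  | other (h : ∀ (δ : GL (Fin 2) L) (g : GL (Fin 2) K), Rep τ δ g →
      LocPush hU UK τ v δ g (φ v) (f v))

variable {UK φ f}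

theorem LocCase.locPush {v : HeightOneSpectrum (𝓞 K)} (h : LocCase hU UK φ f τ v)
    (hτ : Cyc3 τ) (h3 : Module.finrank K L = 3) {δ : GL (Fin 2) L} {g : GL (Fin 2) K}
    (hr : Rep τ δ g) : LocPush hU UK τ v δ g (φ v) (f v) := by
  have hG : Nat.card (L ≃ₐ[K] L) = 3 := by rw [IsGalois.card_aut_eq_finrank, h3]
  cases h with
  | split w₀ hw k hB hf hrow hφ hk =>
    rw [hφ, hk]
    exact locPush_split hU UK (isThree_of_cyc3 hτ) hw k hB hf hrow hr
  | unit w₀ hw he hL hK hφ hk =>
    rw [hφ, hk]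
    exact hr.locPush_unit hU UK hG (isThree_of_cyc3 hτ).ne_one hw he hL hK
  | other h => exact h δ g hr

variable (UK φ f)

open Classical in
/-- **The comparison on the discrete part.** -/
theorem exists_push_main (hτ : Cyc3 τ) (h3 : Module.finrank K L = 3)
    (hφ : {v | φ v ≠ idK}.Finite) (hf : {v | f v ≠ idK}.Finite)
    (h : ∀ v, LocCase hU UK φ f τ v)
    {x : PG L} {γ : PG K} (hγ : PEll γ) (hx : pnm τ x = pup L γ) :
    ∃ p : D U → D UK,
      (∀ t : PG K, t * γ = γ * t → ∀ d, kerL φ d (x • tauD hU τ d) ≠ 0 →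
        p (pup L t • d) = t • p d) ∧
      (∀ e, {d | kerL φ d (x • tauD hU τ d) ≠ 0 ∧ p d = e}.Finite) ∧
      ∀ e, ∑ᶠ d, (if p d = e then kerL φ d (x • tauD hU τ d) else 0) = kerK UK f e (γ • e) :=
  exists_push hU UK φ f hτ (fun _ _ hr v => (h v).locPush hU hτ h3 hr)
    (fun δ _ hr => (finite_not_goodAt U UK φ f (L ≃ₐ[K] L) hφ hf δ hr.ell).subset
      fun _ hv hgood => hv (hr.locPush₁ hU hτ h3 hgood)) hγ hx

end Fermat.Agent.LT.B8

end
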