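import Fermat.Agent.LT.B8.Defs
import Fermat.Agent.LT.Tr.Dict

/-!
# The global push-forward on the discrete part

From the local comparisons at all places (`LocPush`) and at almost all places with base points
(`LocPush₁`): `exists_push`.
-/

set_option autoImplicit false

noncomputable section

open IsDedekindDomain NumberField Function Set

namespace Fermat.Agent.LT.B8

open Fermat.Agent.LT.Ext Fermat.Agent.LT.Lvl Fermat.Agent.LT.RProd

section Global

variable {K L : Type*} [Field K] [Field L] [NumberField K] [NumberField L] [Algebra K L]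
  {G : Type*} [Group G] [Finite G] [MulSemiringAction G L] [IsGaloisGroup G K L]
  {U : Lev L} (hU : GStable G U.U) (UK : Lev K) (τ : G)
  (φ : ∀ v : HeightOneSpectrum (𝓞 K), DA U v → DA U v → ℂ)
  (f : ∀ v : HeightOneSpectrum (𝓞 K), Dv UK v → Dv UK v → ℂ)

/-- the kernel on `D U` with the local components `φ v` -/
def kerL (x y : D U) : ℂ := kprod φ (regroup K U x) (regroup K U y)

/-- the kernel on `D UK` with the local components `f v` -/
def kerK (x y : D UK) : ℂ := kprod f x y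

theorem tw_eq (δ : GL (Fin 2) L) (d : D U) (v : HeightOneSpectrum (𝓞 K)) :
    tw hU τ v δ (φ v) (regroup K U d v) =
      φ v (regroup K U d v) (regroup K U (δ • tauD hU τ d) v) := rfl

/-- **The global push-forward on the discrete part**, matrices. -/
theorem exists_pushGL {δ : GL (Fin 2) L} {g : GL (Fin 2) K}
    (h : ∀ v, LocPush hU UK τ v δ g (φ v) (f v))
    (h1 : {v | ¬ LocPush₁ hU UK τ v δ g (φ v) (f v)}.Finite) :
    ∃ p : D U → D UK,
      (∀ t : GL (Fin 2) K, t * g = g * t → ∀ d, kerL φ d (δ • tauD hU τ d) ≠ 0 →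
        p (gup L t • d) = t • p d) ∧
      FibSum p (fun d => kerL φ d (δ • tauD hU τ d)) (fun e => kerK UK f e (g • e)) := by
  classical
  -- the choice of the local maps
  have hex : ∀ v, ∃ p : DA U v → Dv UK v, IsLocPush hU UK τ v δ g (φ v) (f v) p ∧
      (LocPush₁ hU UK τ v δ g (φ v) (f v) → IsLocPush₁ hU UK τ v δ g (φ v) (f v) p) := by
    intro v
    by_cases hv : LocPush₁ hU UK τ v δ g (φ v) (f v)
    · obtain ⟨p, hp⟩ := hv
      exact ⟨p, hp.toIsLocPush, fun _ => hp⟩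
    · obtain ⟨p, hp⟩ := h v
      exact ⟨p, hp, fun h' => absurd h' hv⟩
  choose p hp hp1 using hex
  have hb : {v | p v (baseA U v) ≠ base UK v}.Finite := h1.subset fun v hv hc =>
    hv (hp1 v hc).map_base
  have h2 : {v | ¬ (tw hU τ v δ (φ v) (baseA U v) = 1 ∧
      ∀ x, tw hU τ v δ (φ v) x ≠ 0 → p v x = base UK v → x = baseA U v)}.Finite :=
    h1.subset fun v hv hc => hv ⟨(hp1 v hc).val_base, (hp1 v hc).eq_base⟩
  have hfib := FibSum.rprod (a₀ := fun v => baseA U v) (b₀ := base UK) hb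
    (fun v => (hp v).fib) h2
  refine ⟨fun d => RProd.map p hb (regroup K U d), fun t ht d hd => ?_, fun e => ?_, fun e => ?_⟩
  · refine RProd.ext' fun v => ?_
    have hne : tw hU τ v δ (φ v) (regroup K U d v) ≠ 0 := by
      have h3 : {v | tw hU τ v δ (φ v) (baseA U v) ≠ 1}.Finite :=
        h2.subset fun v hv hc => hv hc.1
      exact RProd.ne_zero_of_fprod_ne_zero (f := fun v => tw hU τ v δ (φ v)) h3 hd v
    exact (hp v).equiv t ht _ hne
  · exact (hfib.fin e).preimage (regroup K U).injective.injOn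
  · rw [show kerK UK f e (g • e) = RProd.fprod (fun v e => f v e (g • e)) e from rfl,
      ← hfib.sum e]
    exact finsum_comp_equiv (regroup K U) (f := fun x => if RProd.map p hb x = e then
      RProd.fprod (fun v => tw hU τ v δ (φ v)) x else 0)

end Global

/-! ### `PGL₂` language -/

section PG

open Fermat.Agent.LT.Dict

variable {K L : Type*} [Field K] [Field L] [NumberField K] [NumberField L] [Algebra K L]
  {U : Lev L} (hU : GStable (L ≃ₐ[K] L) U.U) (UK : Lev K) {τ : L ≃ₐ[K] L}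
  (φ : ∀ v : HeightOneSpectrum (𝓞 K), DA U v → DA U v → ℂ)
  (f : ∀ v : HeightOneSpectrum (𝓞 K), Dv UK v → Dv UK v → ℂ)

/-- The representatives for which the local comparison is needed. -/
structure Rep (τ : L ≃ₐ[K] L) (δ : GL (Fin 2) L) (g : GL (Fin 2) K) : Prop where
  norm : gnm τ δ = Dict.gup L g
  comm : δ * Dict.gup L g = Dict.gup L g * δ
  ell : Ell (g : M2 K)
  trace : (g : M2 K).trace ≠ 0

omit [NumberField K] [NumberField L] in
theorem exists_rep (hτ : Cyc3 τ) {x : PG L} {γ : PG K} (hγ : PEll γ) (h : pnm τ x = pup L γ) :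
    ∃ (δ : GL (Fin 2) L) (g : GL (Fin 2) K), pmk δ = x ∧ pmk g = γ ∧ Rep τ δ g := by
  obtain ⟨δ, rfl⟩ := pmk_surjective x
  obtain ⟨g₀, rfl⟩ := pmk_surjective γ
  rw [pell_pmk] at hγ
  obtain ⟨c, hc, hN⟩ := exists_scalar hτ hγ.2 h
  have hdet : (c • (g₀ : M2 K)).det ≠ 0 := by
    rw [Matrix.det_smul]
    exact mul_ne_zero (pow_ne_zero _ hc) (det_coe_ne_zero g₀)
  set g : GL (Fin 2) K := mkG (c • (g₀ : M2 K)) hdet with hg
  have hgc : (g : M2 K) = c • (g₀ : M2 K) := rfl
  have hpm : pmk g = pmk g₀ := by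
    rw [pmk_eq_iff]
    exact ⟨c, hc, hgc⟩
  have hN' : gnm τ δ = Dict.gup L g := by
    apply Units.ext
    rw [coe_gnm, hN, coe_gup, hgc]
  refine ⟨δ, g, rfl, hpm, hN', ?_, ?_, ?_⟩
  · apply Units.ext
    rw [Units.val_mul, Units.val_mul, coe_gup]
    refine commute_of_pnm_eq hτ (g := g) ?_ ?_
    · rw [hgc, Matrix.trace_smul, smul_eq_mul]
      exact mul_ne_zero hc hγ.2
    · rw [hpm]
      exact h
  · rw [hgc]
    exact ell_smul hc hγ.1
  · rw [hgc, Matrix.trace_smul, smul_eq_mul]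
    exact mul_ne_zero hc hγ.2

open Classical in
/-- **The global push-forward on the discrete part.** -/
theorem exists_push [IsGaloisGroup (L ≃ₐ[K] L) K L] (hτ : Cyc3 τ)
    (h : ∀ (δ : GL (Fin 2) L) (g : GL (Fin 2) K), Rep τ δ g →
      ∀ v, LocPush hU UK τ v δ g (φ v) (f v))
    (h1 : ∀ (δ : GL (Fin 2) L) (g : GL (Fin 2) K), Rep τ δ g →
      {v | ¬ LocPush₁ hU UK τ v δ g (φ v) (f v)}.Finite)
    {x : PG L} {γ : PG K} (hγ : PEll γ) (hx : pnm τ x = pup L γ) :
    ∃ p : D U → D UK,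
      (∀ t : PG K, t * γ = γ * t → ∀ d, kerL φ d (x • tauD hU τ d) ≠ 0 →
        p (pup L t • d) = t • p d) ∧
      (∀ e, {d | kerL φ d (x • tauD hU τ d) ≠ 0 ∧ p d = e}.Finite) ∧
      ∀ e, ∑ᶠ d, (if p d = e then kerL φ d (x • tauD hU τ d) else 0) = kerK UK f e (γ • e) := by
  obtain ⟨δ, g, rfl, rfl, hr⟩ := exists_rep hτ hγ hx
  obtain ⟨p, hp1, hp2⟩ := exists_pushGL hU UK τ φ f (h δ g hr) (h1 δ g hr)
  refine ⟨p, fun t ht d hd => ?_, hp2.fin, hp2.sum⟩
  obtain ⟨t, rfl⟩ := pmk_surjective t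
  rw [pup_pmk, pmk_smul, pmk_smul]
  refine hp1 t ?_ d hd
  rw [commute_iff_of_pell hr.trace] at ht
  apply Units.ext
  rw [Units.val_mul, Units.val_mul]
  exact ht

end PG

end Fermat.Agent.LT.B8

end
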