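import Fermat.Agent.LT.B8.Main
import Fermat.Agent.LT.HK.Pure
import Fermat.Agent.LT.MatchSplitHK
import Fermat.Agent.LT.TwVanish

/-!
# The transfer of pure tensors of Hecke kernels

* `tr3` : the transfer at a split place; `TransAt`, `Trans` : the transfer relation;
* `Trans.exists_push` : the comparison on the discrete part for transferred pure tensors;
* `Trans.letter`, `Trans.letter_mul`, `Trans.list_mul` : letters at split places;
* `goodAt_*` : the local conditions of `TwVanish`.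
-/

set_option autoImplicit false

noncomputable section

open IsDedekindDomain NumberField Function Set
open scoped WithZero Pointwise

namespace Fermat.Agent.LT.B8

open Fermat.Agent.LT.Ext Fermat.Agent.LT.Lvl Fermat.Agent.LT.Dict Fermat.Agent.LT.HK

section Img

variable {K L : Type*} [Field K] [Field L] [NumberField K] [NumberField L] [Algebra K L]
  [IsGalois K L] {U : Lev L} {UK : Lev K} (hB : ∀ v, BaseLevel (UK.U v) U.U)

/-- the Hecke kernels at `w` as Hecke kernels at `v` (`v` split) -/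
abbrev img {v : HeightOneSpectrum (𝓞 K)} (w : Above L v)
    (hw : MulAction.stabilizer (L ≃ₐ[K] L) w.1 = ⊥) : LocH U w.1 →ₐ[ℂ] LocH UK v :=
  hkBase (hB v) w hw

variable {hB} in
theorem img_congr {v : HeightOneSpectrum (𝓞 K)} {w w' : Above L v}
    {hw : MulAction.stabilizer (L ≃ₐ[K] L) w.1 = ⊥}
    {hw' : MulAction.stabilizer (L ≃ₐ[K] L) w'.1 = ⊥} (h : w = w') (κ : PTen U) :
    img hB w hw (κ.k w.1) = img hB w' hw' (κ.k w'.1) := by
  subst h
  rfl

/-- **The transfer at a split place**: the product of the three kernels. -/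
def tr3 (τ : L ≃ₐ[K] L) {v : HeightOneSpectrum (𝓞 K)} (w₀ : Above L v)
    (hw : MulAction.stabilizer (L ≃ₐ[K] L) w₀.1 = ⊥) (κ : PTen U) : LocH UK v :=
  img hB ((1 : L ≃ₐ[K] L) • w₀) (stabilizer_above_eq_bot hw _) (κ.k ((1 : L ≃ₐ[K] L) • w₀).1) *
    img hB (τ⁻¹ • w₀) (stabilizer_above_eq_bot hw _) (κ.k (τ⁻¹ • w₀).1) *
    img hB ((τ⁻¹ * τ⁻¹) • w₀) (stabilizer_above_eq_bot hw _) (κ.k ((τ⁻¹ * τ⁻¹) • w₀).1)

end Img

section Trans

variable {K L : Type*} [Field K] [Field L] [NumberField K] [NumberField L] [Algebra K L]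
  [IsGalois K L] {U : Lev L} (hU : GStable (L ≃ₐ[K] L) U.U) {UK : Lev K}
  (hB : ∀ v, BaseLevel (UK.U v) U.U) (τ : L ≃ₐ[K] L)

/-- **The transfer relation at `v`**: `v` splits and `b` is the product of the three kernels, or
`v` is unramified and both kernels are `1`, or the local comparison is given. -/
inductive TransAt (v : HeightOneSpectrum (𝓞 K)) (κ : PTen U) (b : LocH UK v) : Prop
  | split (w₀ : Above L v) (hw : MulAction.stabilizer (L ≃ₐ[K] L) w₀.1 = ⊥)
      (hb : b = tr3 hB τ w₀ hw κ)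
  | unit (w₀ : Above L v) (hw : MulAction.stabilizer (L ≃ₐ[K] L) w₀.1 = ⊤)
      (he : v.asIdeal.ramificationIdx' w₀.1.asIdeal = 1)
      (hL : U.U w₀.1 = GLO (Valued.v : Valuation (w₀.1.adicCompletion L) ℤᵐ⁰))
      (hK : UK.U v = GLO (Valued.v : Valuation (v.adicCompletion K) ℤᵐ⁰))
      (hκ : κ.k w₀.1 = 1) (hb : b = 1)
  | bad (w₀ : Above L v) (hw : MulAction.stabilizer (L ≃ₐ[K] L) w₀.1 = ⊤)
      (h : ∀ (δ : GL (Fin 2) L) (g : GL (Fin 2) K), Rep τ δ g →
        LocPush hU UK τ v δ g (fun d d' => (κ.k w₀.1).ker (d w₀) (d' w₀)) b.ker)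

/-- **The transfer relation.** -/
def Trans (κ : PTen U) (κ' : PTen UK) : Prop := ∀ v, TransAt hU hB τ v κ (κ'.k v)

theorem kA_nonSplit {v : HeightOneSpectrum (𝓞 K)} {w₀ : Above L v}
    (hw : MulAction.stabilizer (L ≃ₐ[K] L) w₀.1 = ⊤)
    (f : ∀ w : HeightOneSpectrum (𝓞 L), Lvl.Dv U w → Lvl.Dv U w → ℂ) (x y : DA U v) :
    kA f v x y = f w₀.1 (x w₀) (y w₀) := by
  rw [kA]
  exact finprod_eq_single _ w₀ fun w hne => absurd (above_eq hw w) hne

theorem ker_one_idK {Γ X : Type*} [Group Γ] [MulAction Γ X] : (1 : HK Γ X).ker = idK := by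
  funext x y
  exact @ker_one Γ _ X _ (fun a b => Classical.propDecidable (a = b)) x y

variable {hU hB τ}

theorem TransAt.locCase {v : HeightOneSpectrum (𝓞 K)} {κ : PTen U} {b : LocH UK v}
    (h : TransAt hU hB τ v κ b) {φ : ∀ v : HeightOneSpectrum (𝓞 K), DA U v → DA U v → ℂ}
    {f : ∀ v : HeightOneSpectrum (𝓞 K), Lvl.Dv UK v → Lvl.Dv UK v → ℂ}
    (hφ : φ v = kA (fun w => (κ.k w).ker) v) (hf : f v = b.ker) :
    LocCase hU UK φ f τ v := by
  classical
  cases h with
  | split w₀ hw hb =>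
    refine .split w₀ hw (fun w => (κ.k w).ker) (hB v)
      (fun w g x y => (κ.k w.1).ker_smul_smul g x y) (fun w x => (κ.k w.1).finite_row x) hφ ?_
    rw [hf, hb]
    funext x y
    exact (kK_ker (τ := τ) (hB v) hw κ.k x y).symm
  | unit w₀ hw he hL hK hκ hb =>
    refine .unit w₀ hw he hL hK ?_ ?_
    · rw [hφ]
      funext x y
      rw [kA_nonSplit hw, hκ, idK_nonSplit hw, ker_one_idK]
    · rw [hf, hb, ker_one_idK]
  | bad w₀ hw h =>
    refine .other fun δ g hr => ?_
    have h1 : φ v = fun d d' => (κ.k w₀.1).ker (d w₀) (d' w₀) := by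
      rw [hφ]
      funext x y
      exact kA_nonSplit hw _ x y
    rw [h1, hf]
    exact h δ g hr

omit [IsGalois K L] in
theorem finite_kA_ne_idK (κ : PTen U) :
    {v : HeightOneSpectrum (𝓞 K) | kA (fun w => (κ.k w).ker) v ≠ idK}.Finite := by
  classical
  refine (kadm_kA κ.kadm).ind.subset fun v hv h => hv ?_
  rw [h]
  rfl

theorem finite_ker_ne_idK (κ : PTen UK) :
    {v : HeightOneSpectrum (𝓞 K) | (κ.k v).ker ≠ idK}.Finite := by
  classical
  refine κ.kadm.ind.subset fun v hv h => hv ?_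
  rw [h]
  rfl

omit [IsGalois K L] in
theorem kerL_kA (κ : PTen U) (x y : D U) :
    kerL (K := K) (fun v => kA (fun w => (κ.k w).ker) v) x y = (pten κ).ker x y :=
  (kprod_regroup κ.kadm x y).trans (ker_pten' κ x y).symm

theorem kerK_ker (κ : PTen UK) (x y : D UK) :
    kerK UK (fun v => (κ.k v).ker) x y = (pten κ).ker x y := (ker_pten' κ x y).symm

open Classical in
/-- **The comparison on the discrete part for pure tensors.** -/
theorem Trans.exists_push {κ : PTen U} {κ' : PTen UK} (h : Trans hU hB τ κ κ') (hτ : Cyc3 τ)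
    (h3 : Module.finrank K L = 3) {x : PG L} {γ : PG K} (hγ : PEll γ)
    (hx : pnm τ x = pup L γ) :
    ∃ p : D U → D UK,
      (∀ t : PG K, t * γ = γ * t → ∀ d, (pten κ).ker d (x • tauD hU τ d) ≠ 0 →
        p (pup L t • d) = t • p d) ∧
      (∀ e, {d | (pten κ).ker d (x • tauD hU τ d) ≠ 0 ∧ p d = e}.Finite) ∧
      ∀ e, ∑ᶠ d, (if p d = e then (pten κ).ker d (x • tauD hU τ d) else 0) =
        (pten κ').ker e (γ • e) := by
  have h1 := exists_push_main hU UK (fun v => kA (fun w => (κ.k w).ker) v)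
    (fun v => (κ'.k v).ker) hτ h3 (finite_kA_ne_idK κ) (finite_ker_ne_idK κ')
    (fun v => (h v).locCase rfl rfl) hγ hx
  simpa only [kerL_kA, kerK_ker] using h1

end Trans

end Fermat.Agent.LT.B8

end
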