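import Fermat.Agent.LT.Near.Cos
import Fermat.Agent.LT.MatchUnit

/-!
# The local comparison at a bad place with one place above

`exists_bad` : a Hecke kernel `a` at `w₀`, supported near the identity (modulo scalars), of level
`K(m)` with `m` large, has a transfer `b` at `v`: `LocPush` holds for all `δ, g` with
`N δ = g`, and `b` is supported near the identity.
-/

set_option autoImplicit false

open IsDedekindDomain NumberField Function Set Matrix WithZero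
open scoped WithZero

noncomputable section

namespace Fermat.Agent.LT.B8

open Fermat.Agent.LT.Ext Fermat.Agent.LT.Lvl Fermat.Agent.LT.Near

section Consts

variable {L : Type*} [Field L] [NumberField L] (w : HeightOneSpectrum (𝓞 L))

/-- the loss of levels -/
def c3 : ℕ := (exists_level w ‖(3 : w.adicCompletion L)⁻¹‖).choose

theorem c3_spec {n : ℕ} (hn : c3 w ≤ n) : ‖(3 : w.adicCompletion L)⁻¹‖ * rad w n < 1 :=
  (exists_level w ‖(3 : w.adicCompletion L)⁻¹‖).choose_spec n hn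

/-- the smallest radius of the supports -/
def r₀ : ℕ := (exists_level w (‖(3 : w.adicCompletion L)⁻¹‖ ^ 2 *
  (‖(2 : w.adicCompletion L)⁻¹‖ * ‖(3 : w.adicCompletion L)⁻¹‖ ^ 2))).choose ⊔
    (exists_level w (‖(3 : w.adicCompletion L)⁻¹‖ ^ 2 * ‖(9 : w.adicCompletion L)⁻¹‖)).choose ⊔ 1

theorem r₀_spec {r : ℕ} (hr : r₀ w ≤ r) : ‖(3 : w.adicCompletion L)⁻¹‖ ^ 2 *
    (‖(2 : w.adicCompletion L)⁻¹‖ * (‖(3 : w.adicCompletion L)⁻¹‖ ^ 2 * rad w r)) < 1 := by
  have h := (exists_level w (‖(3 : w.adicCompletion L)⁻¹‖ ^ 2 *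
    (‖(2 : w.adicCompletion L)⁻¹‖ * ‖(3 : w.adicCompletion L)⁻¹‖ ^ 2))).choose_spec r
    ((le_sup_left.trans le_sup_left).trans hr)
  calc _ = ‖(3 : w.adicCompletion L)⁻¹‖ ^ 2 * (‖(2 : w.adicCompletion L)⁻¹‖ *
        ‖(3 : w.adicCompletion L)⁻¹‖ ^ 2) * rad w r := by ring
    _ < 1 := h

theorem nine_ne_zero_w : (9 : w.adicCompletion L) ≠ 0 := by
  have := natCast_ne_zero_w w (m := 9) (by norm_num)
  exact_mod_cast this

theorem r₀_spec' {r : ℕ} (hr : r₀ w ≤ r) :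
    ‖(3 : w.adicCompletion L)⁻¹‖ ^ 2 * rad w r < ‖(9 : w.adicCompletion L)‖ := by
  have h := (exists_level w (‖(3 : w.adicCompletion L)⁻¹‖ ^ 2 *
    ‖(9 : w.adicCompletion L)⁻¹‖)).choose_spec r ((le_sup_right.trans le_sup_left).trans hr)
  have h9 : 0 < ‖(9 : w.adicCompletion L)‖ := norm_pos_iff.mpr (nine_ne_zero_w w)
  rw [norm_inv (9 : w.adicCompletion L)] at h
  have h1 := mul_lt_mul_of_pos_right h h9
  rw [one_mul] at h1
  calc _ = ‖(3 : w.adicCompletion L)⁻¹‖ ^ 2 * ‖(9 : w.adicCompletion L)‖⁻¹ * rad w r *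
        ‖(9 : w.adicCompletion L)‖ := by
        field_simp
    _ < _ := h1

theorem one_le_of_r₀ {r : ℕ} (hr : r₀ w ≤ r) : r ≠ 0 := by
  have : 1 ≤ r := le_sup_right.trans hr
  omega

/-- the smallest level -/
def m₀ (r m' : ℕ) : ℕ := r ⊔ ((m' ⊔ 1) + c3 w)

theorem m₀_spec {r m' m : ℕ} (hm : m₀ w r m' ≤ m) :
    ‖(3 : w.adicCompletion L)⁻¹‖ * rad w m ≤ rad w (m' ⊔ 1) := by
  have h1 : (m' ⊔ 1) + c3 w ≤ m := le_sup_right.trans hm
  obtain ⟨n, rfl⟩ := Nat.exists_eq_add_of_le h1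
  rw [add_assoc, rad_add]
  have h2 := c3_spec w (Nat.le_add_right (c3 w) n)
  have h3 := rad_pos w (m' ⊔ 1)
  calc ‖(3 : w.adicCompletion L)⁻¹‖ * (rad w (m' ⊔ 1) * rad w (c3 w + n))
      = (‖(3 : w.adicCompletion L)⁻¹‖ * rad w (c3 w + n)) * rad w (m' ⊔ 1) := by ring
    _ ≤ 1 * rad w (m' ⊔ 1) := by gcongr
    _ = rad w (m' ⊔ 1) := one_mul _

theorem le_of_m₀ {r m' m : ℕ} (hm : m₀ w r m' ≤ m) : r ≤ m := le_sup_left.trans hm

theorem ne_zero_of_m₀ {r m' m : ℕ} (hm : m₀ w r m' ≤ m) : m ≠ 0 := by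
  have h1 : (m' ⊔ 1) + c3 w ≤ m := le_sup_right.trans hm
  have h2 : 1 ≤ m' ⊔ 1 := le_sup_right
  omega

end Consts

section TestOf

variable {L : Type*} [Field L] [NumberField L] {w : HeightOneSpectrum (𝓞 L)}

/-- **helper87's test function of a Hecke kernel.** -/
def testOf {U : Subgroup (GL (Fin 2) (w.adicCompletion L))} {r m' m : ℕ} (hr : r₀ w ≤ r)
    (hm : m₀ w r m' ≤ m) (a : HK (GL (Fin 2) (w.adicCompletion L)) (Cos U))
    (hsupp : ∀ x, a.fn x ≠ 0 →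
      x ∈ Kn (vF w) (exp (-(r : ℤ))) ⊔ Subgroup.center (GL (Fin 2) (w.adicCompletion L)))
    (hleft : ∀ k ∈ Kn (vF w) (exp (-(m' : ℤ))), ∀ x, a.fn (k * x) = a.fn x)
    (hright : ∀ k ∈ Kn (vF w) (exp (-(m' : ℤ))), ∀ x, a.fn (x * k) = a.fn x) :
    Test (w.adicCompletion L) where
  r := rad w r
  M := rad w m
  φ := a.fn
  r0 := (rad_pos w r).le
  small := r₀_spec w hr
  M0 := rad_pos w m
  Mr := rad_anti w (le_of_m₀ w hm)
  supp := fun g hg => (nr_rad_iff (one_le_of_r₀ w hr)).mpr (hsupp g hg)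
  left := fun u hu g => by
    have h1 : Nr (rad w (m' ⊔ 1)) u := hu.mono (m₀_spec w hm)
    have h2 : (m' ⊔ 1) ≠ 0 := by
      have : 1 ≤ m' ⊔ 1 := le_sup_right
      omega
    obtain ⟨z, k, hk, rfl⟩ := mem_sup_center.mp ((nr_rad_iff h2).mp h1)
    have hk' : k ∈ Kn (vF w) (exp (-(m' : ℤ))) :=
      Kn_mono (by rw [exp_le_exp]; push_cast; omega) hk
    have hz : GeneralLinearGroup.scalar (Fin 2) z ∈
        U ⊔ Subgroup.center (GL (Fin 2) (w.adicCompletion L)) :=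
      Subgroup.mem_sup_right (mem_center_of_scalar z)
    rw [mul_assoc, HK.fn_mul_left a _ hz, hleft k hk']
  right := fun u hu g => by
    have h1 : Nr (rad w (m' ⊔ 1)) u := hu.mono (m₀_spec w hm)
    have h2 : (m' ⊔ 1) ≠ 0 := by
      have : 1 ≤ m' ⊔ 1 := le_sup_right
      omega
    obtain ⟨z, k, hk, rfl⟩ := mem_sup_center.mp ((nr_rad_iff h2).mp h1)
    have hk' : k ∈ Kn (vF w) (exp (-(m' : ℤ))) :=
      Kn_mono (by rw [exp_le_exp]; push_cast; omega) hk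
    have hz : GeneralLinearGroup.scalar (Fin 2) z ∈
        U ⊔ Subgroup.center (GL (Fin 2) (w.adicCompletion L)) :=
      Subgroup.mem_sup_right (mem_center_of_scalar z)
    rw [scalar_mul_comm, ← mul_assoc, HK.fn_mul_right a _ hz, hright k hk']

end TestOf

section Support

variable {K L : Type*} [Field K] [Field L] [NumberField K] [NumberField L] [Algebra K L]
  {v : HeightOneSpectrum (𝓞 K)} {w : HeightOneSpectrum (𝓞 L)} [w.asIdeal.LiesOver v.asIdeal]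

variable (v) in
/-- the radius of the support of the transfer -/
def rK : ℤᵐ⁰ := v.valuation K 9 * exp (-1)

theorem rK_lt_one : rK v < 1 := by
  have h1 : v.valuation K 9 ≤ 1 := by
    have := v.valuation_le_one (K := K) (9 : 𝓞 K)
    have e : algebraMap (𝓞 K) K 9 = 9 := map_ofNat _ 9
    rw [← e]
    exact this
  have h2 : (exp (-1) : ℤᵐ⁰) < 1 := by
    rw [← WithZero.exp_zero, exp_lt_exp]
    norm_num
  exact (mul_le_mul' h1 le_rfl).trans_lt (by rwa [one_mul])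

theorem rK_sq_lt : rK v ^ 2 < v.valuation K 81 := by
  have h9 : (9 : K) ≠ 0 := by norm_num
  have h0 : v.valuation K 9 ≠ 0 := (Valuation.ne_zero_iff _).mpr h9
  have h81 : v.valuation K 81 = v.valuation K 9 ^ 2 := by
    rw [← map_pow]
    norm_num
  have h2 : (exp (-1) : ℤᵐ⁰) ^ 2 < 1 := by
    rw [← WithZero.exp_nsmul, ← WithZero.exp_zero, exp_lt_exp]
    norm_num
  rw [h81, rK, mul_pow]
  have h3 : (0 : ℤᵐ⁰) < v.valuation K 9 ^ 2 := zero_lt_iff.mpr (pow_ne_zero 2 h0)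
  calc v.valuation K 9 ^ 2 * exp (-1) ^ 2 < v.valuation K 9 ^ 2 * 1 :=
        mul_lt_mul_of_pos_left h2 h3
    _ = _ := mul_one _

theorem le_mul_exp_of_lt {x y : ℤᵐ⁰} (h : x < y) : x ≤ y * exp (-1) := by
  rcases eq_or_ne x 0 with rfl | hx
  · exact zero_le
  · have hy : y ≠ 0 := (zero_le.trans_lt h).ne'
    obtain ⟨m, rfl⟩ : ∃ m, exp m = x := ⟨_, exp_log hx⟩
    obtain ⟨n, rfl⟩ : ∃ n, exp n = y := ⟨_, exp_log hy⟩
    rw [← exp_add, exp_le_exp]
    rw [exp_lt_exp] at h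
    omega

theorem valued_nine : Valued.v (9 : v.adicCompletion K) = v.valuation K 9 := by
  have := HeightOneSpectrum.valuedAdicCompletion_eq_valuation' v (9 : K)
  rw [← this]
  congr 1
  exact (map_ofNat (algebraMap K (v.adicCompletion K)) 9).symm

/-- elements of `GL₂(K_v)` which are near the identity in `L_w`, up to scalars -/
theorem exists_of_nr {ρ : ℝ} (hρ1 : ρ < 1) (hρ : ρ < ‖(9 : w.adicCompletion L)‖)
    {y : GL (Fin 2) (v.adicCompletion K)}
    (h : Nr ρ (GeneralLinearGroup.map (incl K w v) y)) :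
    ∃ z : (v.adicCompletion K)ˣ, ∃ k : GL (Fin 2) (v.adicCompletion K),
      Bd (Valued.v : Valuation (v.adicCompletion K) ℤᵐ⁰)
        ((k : Matrix (Fin 2) (Fin 2) (v.adicCompletion K)) - 1) (rK v) ∧
      y = GeneralLinearGroup.scalar (Fin 2) z * k := by
  obtain ⟨h0, h1⟩ := h.normal hρ1
  set Y : M2 (w.adicCompletion L) :=
    (GeneralLinearGroup.map (incl K w v) y : M2 (w.adicCompletion L)) with hY
  have hY00 : ∀ i j, Y i j = incl K w v (y i j) := fun i j => rfl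
  have hy0 : y 0 0 ≠ 0 := fun h => h0 (by rw [hY00, h, map_zero])
  refine ⟨Units.mk0 _ hy0, (GeneralLinearGroup.scalar (Fin 2) (Units.mk0 _ hy0))⁻¹ * y, ?_, ?_⟩
  · intro i j
    rw [← map_inv, coe_scalar_mul]
    have e1 : incl K w v (((((Units.mk0 _ hy0)⁻¹ : (v.adicCompletion K)ˣ) : v.adicCompletion K) •
        (y : M2 (v.adicCompletion K)) - 1 : M2 (v.adicCompletion K)) i j) =
          ((Y 0 0)⁻¹ • Y - 1) i j := by
      rw [Matrix.sub_apply, Matrix.sub_apply, map_sub, Matrix.smul_apply, Matrix.smul_apply,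
        smul_eq_mul, smul_eq_mul, map_mul, Units.val_inv_eq_inv_val, Units.val_mk0, map_inv₀,
        hY00, hY00]
      congr 1
      by_cases hij : i = j
      · rw [hij, Matrix.one_apply_eq, Matrix.one_apply_eq, map_one]
      · rw [Matrix.one_apply_ne hij, Matrix.one_apply_ne hij, map_zero]
    have h2 : ‖((Y 0 0)⁻¹ • Y - 1) i j‖ < ‖(9 : w.adicCompletion L)‖ :=
      ((mat_entry_le _ i j).trans h1).trans_lt hρ
    have h9 : (9 : w.adicCompletion L) = incl K w v 9 := (map_ofNat _ 9).symm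
    rw [← e1, h9, norm_lt_iff_v, Compat.valued_ext, Compat.valued_ext, valued_nine] at h2
    exact le_mul_exp_of_lt (lt_of_pow_lt_pow_left₀ _ zero_le h2)
  · rw [mul_inv_cancel_left]

end Support

section Bad

variable {K L : Type*} [Field K] [Field L] [NumberField K] [NumberField L] [Algebra K L]
  {G : Type*} [Group G] [Finite G] [MulSemiringAction G L] [IsGaloisGroup G K L]
  {U : Lev L} (hU : GStable G U.U) (UK : Lev K) {τ : G}
  {v : HeightOneSpectrum (𝓞 K)}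

theorem isScalar_iff_not_nonSc {E : Type*} [Field E] {A : Matrix (Fin 2) (Fin 2) E}
    (h : NonSc A) : ¬ IsScalar A := by
  rintro ⟨h1, h2, h3⟩
  rcases h with h | h | h
  · exact h h1
  · exact h h2
  · exact h h3

include hU in
/-- **The transfer at a bad place with one place above.** -/
theorem exists_bad (hG : Nat.card G = 3) (hτ : τ ≠ 1) {w₀ : Above L v}
    (hw : MulAction.stabilizer G w₀.1 = ⊤) {r m' m : ℕ} (hr : r₀ w₀.1 ≤ r)
    (hm : m₀ w₀.1 r m' ≤ m) (hL : U.U w₀.1 = Kn (vF w₀.1) (exp (-(m : ℤ))))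
    (hK : UK.U v = (U.U w₀.1).comap (glBase v w₀.1))
    (a : HK (GL (Fin 2) (w₀.1.adicCompletion L)) (Lvl.Dv U w₀.1))
    (hsupp : ∀ x, a.fn x ≠ 0 → x ∈ Kn (vF w₀.1) (exp (-(r : ℤ))) ⊔
      Subgroup.center (GL (Fin 2) (w₀.1.adicCompletion L)))
    (hleft : ∀ k ∈ Kn (vF w₀.1) (exp (-(m' : ℤ))), ∀ x, a.fn (k * x) = a.fn x)
    (hright : ∀ k ∈ Kn (vF w₀.1) (exp (-(m' : ℤ))), ∀ x, a.fn (x * k) = a.fn x) :
    ∃ b : HK (GL (Fin 2) (v.adicCompletion K)) (Lvl.Dv UK v),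
      (∀ y, b.fn y ≠ 0 → ∃ z : (v.adicCompletion K)ˣ, ∃ k : GL (Fin 2) (v.adicCompletion K),
        Bd (Valued.v : Valuation (v.adicCompletion K) ℤᵐ⁰)
          ((k : Matrix (Fin 2) (Fin 2) (v.adicCompletion K)) - 1) (rK v) ∧
        y = GeneralLinearGroup.scalar (Fin 2) z * k) ∧
      ∀ (δ : GL (Fin 2) L) (g : GL (Fin 2) K),
        δ * gtau τ δ * gtau τ (gtau τ δ) = gup L g → δ * gup L g = gup L g * δ →
        NonSc (g : Matrix (Fin 2) (Fin 2) K) →
        LocPush hU UK τ v δ g (fun d d' => a.ker (d w₀) (d' w₀)) b.ker := by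
  have hstab := smul_eq_of_top hw τ
  have hf : Cubic (incl K w₀.1 v) (tauW (L := L) τ hstab) := cubic_inst hG hτ hstab
  set T : Test (w₀.1.adicCompletion L) := testOf hr hm a hsupp hleft hright with hT
  have hm0 := ne_zero_of_m₀ w₀.1 hm
  have hWL : U.U w₀.1 ⊔ Subgroup.center (GL (Fin 2) (w₀.1.adicCompletion L)) = T.WL hf := by
    rw [hL]
    ext x
    exact (nr_rad_iff hm0).symm
  have hWK : UK.U v ⊔ Subgroup.center (GL (Fin 2) (v.adicCompletion K)) = T.WK hf := by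
    rw [hK, hL, ← comap_Kn_sup_center v w₀.1 (exp_neg_lt_one hm0), ← hL, hWL]
    rfl
  have hbi : HK.BiFin (UK.U v ⊔ Subgroup.center (GL (Fin 2) (v.adicCompletion K))) (T.fK hf) := by
    rw [hWK]
    exact T.biFin_fK hf
  refine ⟨HK.ofFun hbi, fun y hy => ?_, fun δ g hN hcomm hns => ?_⟩
  · rw [HK.fn_ofFun] at hy
    exact exists_of_nr (Test.radii (T := T) hf).2.1 (r₀_spec' w₀.1 hr) (Test.fK_supp hy)
  · have hΦ : ∀ x : GL (Fin 2) (w₀.1.adicCompletion L), a.ker (x : Lvl.Dv U w₀.1)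
        (gmap w₀.1 δ • dvMap hU hstab (x : Lvl.Dv U w₀.1)) =
        T.φ (x⁻¹ * gmap w₀.1 δ * glExt hstab x) := by
      intro x
      change a.ker ((x : GL (Fin 2) (w₀.1.adicCompletion L)) : Lvl.Dv U w₀.1)
        ((gmap w₀.1 δ * glExt hstab x : GL (Fin 2) (w₀.1.adicCompletion L)) :
          Lvl.Dv U w₀.1) = _
      rw [HK.ker_eq_fn, ← mul_assoc]
      rfl
    have hΨ : ∀ y : GL (Fin 2) (v.adicCompletion K), (HK.ofFun hbi).ker (y : Lvl.Dv UK v)
        (gmap v g • (y : Lvl.Dv UK v)) = T.fK hf (y⁻¹ * gmap v g * y) := by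
      intro y
      change (HK.ofFun hbi).ker ((y : GL (Fin 2) (v.adicCompletion K)) : Lvl.Dv UK v)
        ((gmap v g * y : GL (Fin 2) (v.adicCompletion K)) : Lvl.Dv UK v) = _
      rw [HK.ker_ofFun, ← mul_assoc]
    obtain ⟨p, hp1, hp2⟩ := isPush_cos (T := T) (hf := hf)
      (isScalar_iff_not_nonSc (nonSc_local (v := v) hns)) (comm_local w₀ hcomm)
      (norm_local hstab hN) hWL hWK
      (Φ := fun x => a.ker x (gmap w₀.1 δ • dvMap hU hstab x)) hΦ
      (Ψ := fun e => (HK.ofFun hbi).ker e (gmap v g • e)) hΨ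
    exact ⟨_, isLocPush_of_local hU UK τ δ g hw (φ₀ := a.ker) (fun _ _ => rfl) hp1 hp2⟩

end Bad

section Rep

variable {K L : Type*} [Field K] [Field L] [NumberField K] [NumberField L] [Algebra K L]
  [IsGaloisGroup (L ≃ₐ[K] L) K L]
  {U : Lev L} (hU : GStable (L ≃ₐ[K] L) U.U) (UK : Lev K) {τ : L ≃ₐ[K] L}
  {v : HeightOneSpectrum (𝓞 K)}

/-- **The transfer at a bad place with one place above** (`rK v < 1`, `rK v ^ 2 < |81|`: the second
clause is `RelIn b.ker {k | Bd (k - 1) (rK v)}`). -/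
theorem exists_bad_rep (hG : Nat.card (L ≃ₐ[K] L) = 3) (hτ : τ ≠ 1) {w₀ : Above L v}
    (hw : MulAction.stabilizer (L ≃ₐ[K] L) w₀.1 = ⊤) {r m' m : ℕ} (hr : r₀ w₀.1 ≤ r)
    (hm : m₀ w₀.1 r m' ≤ m) (hL : U.U w₀.1 = Kn (vF w₀.1) (exp (-(m : ℤ))))
    (hK : UK.U v = (U.U w₀.1).comap (glBase v w₀.1))
    (a : HK (GL (Fin 2) (w₀.1.adicCompletion L)) (Lvl.Dv U w₀.1))
    (hsupp : ∀ x, a.fn x ≠ 0 → x ∈ Kn (vF w₀.1) (exp (-(r : ℤ))) ⊔
      Subgroup.center (GL (Fin 2) (w₀.1.adicCompletion L)))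
    (hleft : ∀ k ∈ Kn (vF w₀.1) (exp (-(m' : ℤ))), ∀ x, a.fn (k * x) = a.fn x)
    (hright : ∀ k ∈ Kn (vF w₀.1) (exp (-(m' : ℤ))), ∀ x, a.fn (x * k) = a.fn x) :
    ∃ b : HK (GL (Fin 2) (v.adicCompletion K)) (Lvl.Dv UK v),
      (∀ y, b.fn y ≠ 0 → ∃ z : (v.adicCompletion K)ˣ, ∃ k : GL (Fin 2) (v.adicCompletion K),
        Bd (Valued.v : Valuation (v.adicCompletion K) ℤᵐ⁰)
          ((k : Matrix (Fin 2) (Fin 2) (v.adicCompletion K)) - 1) (rK v) ∧
        y = GeneralLinearGroup.scalar (Fin 2) z * k) ∧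
      (∀ x y : GL (Fin 2) (v.adicCompletion K), b.ker (Cos.mk _ x) (Cos.mk _ y) ≠ 0 →
        ∃ z : (v.adicCompletion K)ˣ, ∃ k ∈ {k : GL (Fin 2) (v.adicCompletion K) |
          Bd (Valued.v : Valuation (v.adicCompletion K) ℤᵐ⁰)
            ((k : Matrix (Fin 2) (Fin 2) (v.adicCompletion K)) - 1) (rK v)},
          y = GeneralLinearGroup.scalar (Fin 2) z * (x * k)) ∧
      ∀ (δ : GL (Fin 2) L) (g : GL (Fin 2) K), Rep τ δ g →
        LocPush hU UK τ v δ g (fun d d' => a.ker (d w₀) (d' w₀)) b.ker := by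
  obtain ⟨b, h1, h2⟩ := exists_bad hU UK hG hτ hw hr hm hL hK a hsupp hleft hright
  refine ⟨b, h1, fun x y hxy => ?_, fun δ g h => h2 δ g h.norm h.comm (nonSc_of_ell h.ell)⟩
  have h3 : b.fn (x⁻¹ * y) ≠ 0 := by
    rw [← HK.ker_eq_fn]
    exact hxy
  obtain ⟨z, k, hk, e⟩ := h1 _ h3
  refine ⟨z, k, hk, ?_⟩
  rw [scalar_mul_comm, mul_assoc, ← scalar_mul_comm, ← e, mul_inv_cancel_left]

end Rep

end Fermat.Agent.LT.B8

end
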