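import Fermat.Agent.LT.Match
import Fermat.Agent.LT.TauD

/-!
# The local comparison at a place `v` (statement)

`L / K` is Galois with group `G`, `τ : G`, `U` a level of `L` (stable under `G`), `UK` a level of
`K`; `DA U v = ∏_{w ∣ v} GL₂(L_w)/U_w` and `Dv UK v = GL₂(K_v)/UK_v` (modulo scalars).

* `LocPush hU UK τ v δ g φ f` : there is a map `p : DA U v → Dv UK v`, equivariant under the
  centraliser of `g` in `GL₂(K)` on the support of `φ d (δ τ d)`, whose fibre sums are `f e (g e)`.
* `LocPush₁` : moreover `p` maps the base point to the base point, and the base point is the only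
  point of the support over the base point, with value `1`.
-/

set_option autoImplicit false

noncomputable section

open IsDedekindDomain NumberField Function Set

namespace Fermat.Agent.LT.B8

open Fermat.Agent.LT.Ext Fermat.Agent.LT.Lvl

section Defs

variable {K L : Type*} [Field K] [Field L] [NumberField K] [NumberField L] [Algebra K L]
  {G : Type*} [Group G] [Finite G] [MulSemiringAction G L] [IsGaloisGroup G K L]
  {U : Lev L} (hU : GStable G U.U) (UK : Lev K) (τ : G)

/-- the image in `GL₂(L)` of a matrix over `K` -/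
abbrev gup (L : Type*) [Field L] [Algebra K L] : GL (Fin 2) K →* GL (Fin 2) L :=
  Matrix.GeneralLinearGroup.map (algebraMap K L)

variable (v : HeightOneSpectrum (𝓞 K)) (δ : GL (Fin 2) L) (g : GL (Fin 2) K)

/-- `d ↦ φ d (δ τ d)` on `DA U v` -/
def tw (φ : DA U v → DA U v → ℂ) (d : DA U v) : ℂ := φ d (vGl U.U δ (vAct hU τ d))

/-- The properties of the local map. -/
structure IsLocPush (φ : DA U v → DA U v → ℂ) (f : Dv UK v → Dv UK v → ℂ)
    (p : DA U v → Dv UK v) : Prop where
  equiv : ∀ t : GL (Fin 2) K, t * g = g * t → ∀ d : DA U v, tw hU τ v δ φ d ≠ 0 →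
    p (vGl U.U (gup L t) d) = t • p d
  fib : FibSum p (tw hU τ v δ φ) (fun e => f e (g • e))

/-- The properties of the local map at almost all places. -/
structure IsLocPush₁ (φ : DA U v → DA U v → ℂ) (f : Dv UK v → Dv UK v → ℂ)
    (p : DA U v → Dv UK v) : Prop extends IsLocPush hU UK τ v δ g φ f p where
  map_base : p (baseA U v) = base UK v
  val_base : tw hU τ v δ φ (baseA U v) = 1
  eq_base : ∀ d, tw hU τ v δ φ d ≠ 0 → p d = base UK v → d = baseA U v

/-- **The local comparison at `v`.** -/
def LocPush (φ : DA U v → DA U v → ℂ) (f : Dv UK v → Dv UK v → ℂ) : Prop :=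
  ∃ p, IsLocPush hU UK τ v δ g φ f p

/-- **The local comparison at almost all `v`.** -/
def LocPush₁ (φ : DA U v → DA U v → ℂ) (f : Dv UK v → Dv UK v → ℂ) : Prop :=
  ∃ p, IsLocPush₁ hU UK τ v δ g φ f p

open Classical in
/-- the identity kernel -/
def idK {A : Type*} (x y : A) : ℂ := if x = y then 1 else 0

end Defs

end Fermat.Agent.LT.B8

end
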