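import Fermat.Agent.LT.B8.SK

/-!
# `TwVanish.GoodAt` for the transfer of `s_V`

* `mem_locPow_of_adic` : `a = b ^ p` in `K_v` implies `a ∈ locPow p v`;
* `mem_locPow_of_split` : `a = α ^ p` in `L`, `v` splits in `L`;
* `goodAt_trans` : `GoodAt` for the components of `κ'` from the conclusion of `exists_trans_sV`.
-/

set_option autoImplicit false

open IsDedekindDomain NumberField Function Set Matrix WithZero
open scoped WithZero Topology

noncomputable section

namespace Fermat.Agent.LT.B8

open Fermat.Agent.LT.Ext Fermat.Agent.LT.Lvl Fermat.Agent.LT.Near Fermat.Agent.LT.HK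
open Fermat.Agent.CFT.Global (locPow mem_locPow)

section LocPow

variable {K : Type*} [Field K] [NumberField K] {v : HeightOneSpectrum (𝓞 K)}

/-- a `p`-th power in `K_v` -/
theorem mem_locPow_of_adic {p : ℕ} {a : Kˣ} {b : v.adicCompletion K}
    (h : b ^ p = algebraMap K (v.adicCompletion K) a) : a ∈ locPow p v := by
  rw [mem_locPow]
  intro n
  have ha : algebraMap K (v.adicCompletion K) a ≠ 0 := (map_ne_zero _).mpr a.ne_zero
  by_cases hp : p = 0
  · subst hp
    refine ⟨1, ?_⟩
    rw [pow_zero] at h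
    have : (a : K) = 1 := by
      apply (algebraMap K (v.adicCompletion K)).injective
      rw [← h, map_one]
    rw [pow_zero, div_one, this, sub_self, map_zero]
    exact zero_le
  have hb : b ≠ 0 := by
    rintro rfl
    rw [zero_pow hp] at h
    exact ha h.symm
  have hcont : ContinuousAt (fun y : v.adicCompletion K =>
      algebraMap K (v.adicCompletion K) a / y ^ p) b :=
    continuousAt_const.div (continuousAt_id.pow p) (pow_ne_zero p hb)
  have h1 : algebraMap K (v.adicCompletion K) a / b ^ p = 1 := by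
    rw [h, div_self ha]
  have hnhds : {z : v.adicCompletion K | Valued.v (z - 1) < exp (-((n : ℤ) + 1))} ∈
      𝓝 (algebraMap K (v.adicCompletion K) a / b ^ p) := by
    rw [h1, mem_nhds_adic]
    exact ⟨_, exp_ne_zero, subset_rfl⟩
  have h2 := hcont.preimage_mem_nhds hnhds
  have h3 : {y : v.adicCompletion K | y ≠ 0} ∈ 𝓝 b := isOpen_ne.mem_nhds hb
  obtain ⟨γ, hγ, hsub⟩ := mem_nhds_adic.mp (Filter.inter_mem h2 h3)
  obtain ⟨k, hk⟩ := exists_sub_lt (v := v) (K := K) b hγ
  obtain ⟨hk1, hk2⟩ := hsub hk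
  have hk0 : k ≠ 0 := by
    rintro rfl
    exact hk2 (map_zero _)
  refine ⟨Units.mk0 k hk0, ?_⟩
  have hk3 : Valued.v (algebraMap K (v.adicCompletion K) a /
      algebraMap K (v.adicCompletion K) k ^ p - 1) < exp (-((n : ℤ) + 1)) := hk1
  rw [← v_algebraMap]
  refine le_of_eq_of_le ?_ hk3.le
  congr 1
  rw [map_sub, map_one, Units.val_div_eq_div_val, Units.val_pow_eq_pow_val, Units.val_mk0,
    map_div₀, map_pow]

end LocPow

section Split

variable {K L : Type*} [Field K] [Field L] [NumberField K] [NumberField L] [Algebra K L]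
  {G : Type*} [Group G] [Finite G] [MulSemiringAction G L] [IsGaloisGroup G K L]
  {v : HeightOneSpectrum (𝓞 K)}

/-- **At a split place every `p`-th power of `L` is a local `p`-th power.** -/
theorem mem_locPow_of_split {p : ℕ} {a : Kˣ} {α : L} (hα : α ^ p = algebraMap K L a)
    {w : Above L v} (hw : MulAction.stabilizer G w.1 = ⊥) : a ∈ locPow p v := by
  obtain ⟨b, hb⟩ := mem_range_of_fixed (K := K) v w.1 G
    (algebraMap L (w.1.adicCompletion L) α) fun σ => by
      obtain ⟨σ, hσ⟩ := σ
      have h1 : σ = 1 := by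
        rw [hw] at hσ
        exact Subgroup.mem_bot.mp hσ
      have hσ' : σ • w.1 = w.1 := hσ
      change (compat_of_smul_eq (L := L) hσ').ext (algebraMap L (w.1.adicCompletion L) α) = _
      rw [Compat.ext_algebraMap]
      congr 1
      change σ • α = α
      rw [h1, one_smul]
  refine mem_locPow_of_adic (b := b) ?_
  apply (compat_liesOver (K := K) (L := L) v w.1).injective_ext
  rw [map_pow, hb, ← map_pow, hα, Compat.ext_algebraMap]

end Split

section GoodAt

variable {K : Type} [Field K] [NumberField K] {L : Type*} [Field L] [NumberField L] [Algebra K L]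
  [IsGalois K L] {S T₀ : Finset (HeightOneSpectrum (𝓞 K))} {M : HeightOneSpectrum (𝓞 K) → ℕ}

/-- **The local conditions of `TwVanish`**, for `κ'` with the properties in the conclusion of
`exists_trans_sV`. -/
theorem goodAt_trans (hG : Nat.card (L ≃ₐ[K] L) = 3) {c : Kˣ} {α : L}
    (hα : α ^ 3 = algebraMap K L c)
    (hS : ∀ v ∉ S, ((3 : ℕ) : 𝓞 K) ∉ v.asIdeal ∧ Fermat.Agent.CFT.SUnits.ord v c = 0)
    {UK : Lev K} {κ' : PTen UK} (h1 : ∀ v ∉ S, κ'.k v = 1)
    (h2 : ∀ v ∈ S, ∀ w₀ : Above L v, MulAction.stabilizer (L ≃ₐ[K] L) w₀.1 = ⊤ →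
      RelIn (κ'.k v).ker {k | Bd (Valued.v : Valuation (v.adicCompletion K) ℤᵐ⁰)
        ((k : Matrix (Fin 2) (Fin 2) (v.adicCompletion K)) - 1) (rK v)})
    (v : HeightOneSpectrum (𝓞 K)) : LT.GoodAt c v (κ'.k v).ker := by
  obtain ⟨w⟩ := nonempty_above (L := L) (v := v)
  rcases split_or_nonSplit hG w with hw | hw
  · exact Or.inl (mem_locPow_of_split hα hw)
  · by_cases hv : v ∈ S
    · exact Or.inr (Or.inl ⟨rK v, rK_lt_one, rK_sq_lt, h2 v hv w hw⟩)
    · refine Or.inr (Or.inr ⟨(hS v hv).1, (hS v hv).2, ?_⟩)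
      rw [h1 v hv]
      have h3 : RelIn ((1 : LocH UK v).ker) (UK.U v : Set (GL (Fin 2) (v.adicCompletion K))) := by
        intro x y hxy
        rw [ker_one_idK] at hxy
        exact Cos.mk_eq_iff.mp (eq_of_idK_ne_zero hxy)
      exact h3.mono (UK.le v)

end GoodAt

end Fermat.Agent.LT.B8

end
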