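import Fermat.Agent.LT.B8.LetterImg
import Fermat.Agent.LT.B7.Pten
import Fermat.Agent.LT.B8.Good
import Fermat.Agent.LT.Desc.Descent

/-!
# The geometric comparison for words in the letters

`WPl τ U` (helper40): the places `w` of `L` of maximal level, moved by `τ`.  `tP i`, `tPK i` : the
letters `T_w`, `T_v` as pure tensors.

* `trans_word` : `(∏ T_w) Uⁿ κS` and `(∏ T_v) Uⁿ κS'` are in the transfer relation;
* `exists_geom_word` : the geometric sides for these words converge and agree, for `n ≥ n₀`.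
-/

set_option autoImplicit false
set_option linter.unusedSectionVars false

noncomputable section

open IsDedekindDomain NumberField Function Set MeasureTheory WithZero Matrix
open scoped ENNReal Pointwise

namespace Fermat.Agent.LT.B8

open Fermat.Agent.LT.Ext Fermat.Agent.LT.Lvl Fermat.Agent.LT.Dict Fermat.Agent.LT.HK
open Fermat.Agent.LT.Iwa Fermat.Agent.LT.Tr Fermat.Agent.LT.B7 Fermat.Agent.LT.Desc
open Fermat.Agent.CFT.SUnits (under under_eq_iff liesOver_under)

section Cross

variable {K L : Type*} [Field K] [Field L] [NumberField K] [NumberField L] [Algebra K L]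
  [IsGalois K L] {U : Lev L} {UK : Lev K} {hB : ∀ v, BaseLevel (UK.U v) U.U} {τ : L ≃ₐ[K] L}

theorem CrossComm.of_disj {κ κ₁ : PTen U}
    (h : ∀ v : HeightOneSpectrum (𝓞 K), (∀ w : Above L v, κ.k w.1 = 1) ∨
      ∀ w : Above L v, κ₁.k w.1 = 1) : CrossComm hB κ κ₁ := by
  intro v w w' hw hw' _
  rcases h v with h | h
  · rw [h w, map_one]
    exact Commute.one_left _
  · rw [h w', map_one]
    exact Commute.one_right _

omit [IsGalois K L] [NumberField K] in
theorem at_eq_one_of_under_ne {u : HeightOneSpectrum (𝓞 L)} (a : LocH U u)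
    {v : HeightOneSpectrum (𝓞 K)} (h : v ≠ under K u) (w : Above L v) :
    (PTen.at u a).k w.1 = 1 := by
  refine PTen.at_of_ne (fun h' => h ?_) a
  rw [← h']
  exact ((under_eq_iff K w.1 v).mpr w.2).symm

/-- the level at the other places over a split place -/
theorem glo_of_glo {v : HeightOneSpectrum (𝓞 K)} (hB : ∀ v, BaseLevel (UK.U v) U.U)
    (hv : UK.U v = GLO (vF v)) (w : Above L v)
    (hw : MulAction.stabilizer (L ≃ₐ[K] L) w.1 = ⊥) : U.U w.1 = GLO (vF w.1) := by
  have h1 := hB v w
  rw [hv, ← comap_GLO v w.1] at h1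
  exact Subgroup.comap_injective (glBase_bijective v w.1 hw).2 h1

end Cross

/-! ### The letters -/

section Letters

variable {K L : Type*} [Field K] [Field L] [NumberField K] [NumberField L] [Algebra K L]
  {U : Lev L} {UK : Lev K}

variable (K) in
/-- the place `w` over `under K w` -/
abbrev abv (w : HeightOneSpectrum (𝓞 L)) : Above L (under K w) := ⟨w, liesOver_under K w⟩

theorem uk_eq_glo (hB : ∀ v, BaseLevel (UK.U v) U.U) {w : HeightOneSpectrum (𝓞 L)}
    (hw : U.U w = GLO (vF w)) : UK.U (under K w) = GLO (vF (under K w)) := by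
  have h := hB (under K w) (abv K w)
  have : w.asIdeal.LiesOver (under K w).asIdeal := liesOver_under K w
  rw [← h, hw]
  exact comap_GLO (under K w) w

variable {τ : L ≃ₐ[K] L}

/-- `T_w` as a pure tensor -/
def tP (i : WPl τ U) : PTen U := PTen.at i.1.1 (castHK i.1.2.symm (datum i.1.1).tH)

/-- `T_v` as a pure tensor -/
def tPK (hd : ∀ w : HeightOneSpectrum (𝓞 L), U.U w = GLO (vF w) →
    UK.U (under K w) = GLO (vF (under K w))) (i : WPl τ U) : PTen UK :=
  PTen.at (under K i.1.1) (castHK (hd i.1.1 i.1.2).symm (datum (under K i.1.1)).tH)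

omit [NumberField K] in
theorem pten_tP (i : WPl τ U) : pten (tP i) = tAt i.1.2 (datum i.1.1) := by
  rw [tP, pten_at, tAt, spAt_apply]

theorem pten_tPK (hd : ∀ w : HeightOneSpectrum (𝓞 L), U.U w = GLO (vF w) →
    UK.U (under K w) = GLO (vF (under K w))) (i : WPl τ U) :
    pten (tPK hd i) = tAt (hd i.1.1 i.1.2) (datum (under K i.1.1)) := by
  rw [tPK, pten_at, tAt, spAt_apply]

variable [IsGalois K L]

theorem stab_eq_bot (h3 : Module.finrank K L = 3) {w : HeightOneSpectrum (𝓞 L)}
    (hw : τ • w ≠ w) : MulAction.stabilizer (L ≃ₐ[K] L) w = ⊥ := by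
  have hG : Nat.card (L ≃ₐ[K] L) = 3 := by rw [IsGalois.card_aut_eq_finrank, h3]
  rcases split_or_nonSplit hG (abv K w) with h | h
  · exact h
  · have h1 : τ ∈ MulAction.stabilizer (L ≃ₐ[K] L) w := by
      rw [show MulAction.stabilizer (L ≃ₐ[K] L) w = ⊤ from h]
      exact Subgroup.mem_top _
    exact absurd h1 hw

variable {hB : ∀ v, BaseLevel (UK.U v) U.U}

/-- The image of a letter at any place. -/
theorem img_tP (i : WPl τ U) {v : HeightOneSpectrum (𝓞 K)} (hv : UK.U v = GLO (vF v))
    (w : Above L v) (hw : MulAction.stabilizer (L ≃ₐ[K] L) w.1 = ⊥) :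
    img hB w hw ((tP i).k w.1) = 1 ∨
      img hB w hw ((tP i).k w.1) = castHK hv.symm (datum v).tH := by
  by_cases h : w.1 = i.1.1
  · right
    obtain ⟨⟨i1, hi⟩, hi'⟩ := i
    subst h
    have h1 : (tP ⟨⟨w.1, hi⟩, hi'⟩ : PTen U).k w.1 = castHK hi.symm (datum w.1).tH :=
      PTen.at_self _ _
    rw [h1]
    exact img_tH hB w hw (datum w.1) (datum v) hi hv
  · left
    rw [tP, PTen.at_of_ne h, map_one]

theorem crossComm_tP (hd : ∀ w : HeightOneSpectrum (𝓞 L), U.U w = GLO (vF w) →
    UK.U (under K w) = GLO (vF (under K w))) (i j : WPl τ U) : CrossComm hB (tP i) (tP j) := by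
  intro v w w' hw hw' _
  by_cases hv : v = under K i.1.1
  · have hG : UK.U v = GLO (vF v) := by
      subst hv
      exact hd i.1.1 i.1.2
    rcases img_tP (hB := hB) i hG w hw with h1 | h1
    · rw [h1]
      exact Commute.one_left _
    · rcases img_tP (hB := hB) j hG w' hw' with h2 | h2
      · rw [h2]
        exact Commute.one_right _
      · rw [h1, h2]
  · rw [tP, at_eq_one_of_under_ne _ hv w, map_one]
    exact Commute.one_left _

theorem letAt_tP (h3 : Module.finrank K L = 3) (hτ : IsThree τ)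
    (hd : ∀ w : HeightOneSpectrum (𝓞 L), U.U w = GLO (vF w) →
      UK.U (under K w) = GLO (vF (under K w))) (i : WPl τ U) (v : HeightOneSpectrum (𝓞 K)) :
    LetAt hB τ v (tP i) ((tPK hd i).k v) := by
  have hw : MulAction.stabilizer (L ≃ₐ[K] L) (abv K i.1.1).1 = ⊥ := stab_eq_bot h3 i.2
  have h1 := letAt_at (hB := hB) hτ (abv K i.1.1) hw (castHK i.1.2.symm (datum i.1.1).tH) v
  rw [img_tH hB (abv K i.1.1) hw (datum i.1.1) (datum (under K i.1.1)) i.1.2
    (hd i.1.1 i.1.2)] at h1
  exact h1

end Letters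

/-! ### Words -/

section Words

variable {K L : Type*} [Field K] [Field L] [NumberField K] [NumberField L] [Algebra K L]
  [IsGalois K L] {U : Lev L} {UK : Lev K} {hU : GStable (L ≃ₐ[K] L) U.U}
  {hB : ∀ v, BaseLevel (UK.U v) U.U} {τ : L ≃ₐ[K] L} {u : HeightOneSpectrum (𝓞 L)}

omit [IsGalois K L] in
theorem under_ne_of_glo {i : HeightOneSpectrum (𝓞 L)} (hi : U.U i = GLO (vF i))
    (hd : ∀ w : HeightOneSpectrum (𝓞 L), U.U w = GLO (vF w) →
      UK.U (under K w) = GLO (vF (under K w)))
    (hI' : UK.U (under K u) = Iw (vF (under K u))) : under K u ≠ under K i := by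
  intro h
  have h1 := hd i hi
  rw [← h, hI'] at h1
  exact Iw_ne_GLO _ h1

/-- **The words are in the transfer relation.** -/
theorem trans_word (h3 : Module.finrank K L = 3) (hτ : IsThree τ) (hu : τ • u ≠ u)
    (hd : ∀ w : HeightOneSpectrum (𝓞 L), U.U w = GLO (vF w) →
      UK.U (under K w) = GLO (vF (under K w)))
    (hI : U.U u = Iw (vF u)) (hI' : UK.U (under K u) = Iw (vF (under K u)))
    {κS : PTen U} {κS' : PTen UK} (hS : Trans hU hB τ κS κS')
    (hSu : ∀ w, under K w = under K u → κS.k w = 1)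
    (hSg : ∀ w, U.U w = GLO (vF w) → κS.k w = 1) (l : List (WPl τ U)) (n : ℕ) :
    Trans hU hB τ (uWord hI (datum u) (l.map tP).prod κS n)
      (uWord hI' (datum (under K u)) (l.map (tPK hd)).prod κS' n) := by
  have hw : MulAction.stabilizer (L ≃ₐ[K] L) (abv K u).1 = ⊥ := stab_eq_bot h3 hu
  refine Trans.list_mul hτ (fun v => ?_) l (fun i _ v => letAt_tP h3 hτ hd i v)
    (fun i _ j _ => crossComm_tP hd i j) fun i _ => ?_
  · rw [PTen.mul_k]
    refine TransAt.let_mul hτ ?_ (hS v) (CrossComm.of_disj fun v => ?_)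
    · have h1 := letAt_at (hB := hB) hτ (abv K u) hw (castHK hI.symm ((datum u).uH ^ n)) v
      have h2 : img hB (abv K u) hw (castHK hI.symm ((datum u).uH ^ n)) =
          castHK hI'.symm ((datum (under K u)).uH ^ n) := by
        rw [map_pow, map_pow, map_pow, img_uH hB (abv K u) hw hI hI' (datum u)
          (datum (under K u))]
      rw [h2] at h1
      exact h1
    · by_cases hv : v = under K u
      · right
        intro w
        exact hSu w.1 (by rw [← hv]; exact (under_eq_iff K w.1 v).mpr w.2)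
      · exact Or.inl fun w => at_eq_one_of_under_ne _ hv w
  · refine CrossComm.mul_right (CrossComm.of_disj fun v => ?_) fun v w w' hw hw' _ => ?_
    · by_cases hv : v = under K u
      · exact Or.inl fun w => at_eq_one_of_under_ne _
          (fun h => under_ne_of_glo i.1.2 hd hI' (hv.symm.trans h)) w
      · exact Or.inr fun w => at_eq_one_of_under_ne _ hv w
    · by_cases hv : v = under K i.1.1
      · have hG : UK.U v = GLO (vF v) := by
          subst hv
          exact hd i.1.1 i.1.2
        rw [hSg w'.1 (glo_of_glo hB hG w' hw'), map_one]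
        exact Commute.one_right _
      · rw [tP, at_eq_one_of_under_ne _ hv w, map_one]
        exact Commute.one_left _

/-- The components of a word of letters. -/
theorem prod_k_eq_one {ι : Type*} {F : Type*} [Field F] [NumberField F] {V : Lev F}
    {f : ι → PTen V} {w : HeightOneSpectrum (𝓞 F)} (l : List ι) (h : ∀ i ∈ l, (f i).k w = 1) :
    (l.map f).prod.k w = 1 := by
  induction l with
  | nil => rfl
  | cons i l ih =>
    rw [List.map_cons, List.prod_cons, PTen.mul_k, h i (by simp),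
      ih fun j hj => h j (by simp [hj]), one_mul]

/-- the word `∏ T_w` over `L` -/
def lT (l : List (WPl τ U)) : HK (PG L) (D U) :=
  (l.map fun i : WPl τ U => tAt i.1.2 (datum i.1.1)).prod

/-- the word `∏ T_v` over `K` -/
def lTK (hd : ∀ w : HeightOneSpectrum (𝓞 L), U.U w = GLO (vF w) →
    UK.U (under K w) = GLO (vF (under K w))) (l : List (WPl τ U)) : HK (PG K) (D UK) :=
  (l.map fun i : WPl τ U => tAt (hd i.1.1 i.1.2) (datum (under K i.1.1))).prod

theorem pten_list {ι : Type*} {F : Type*} [Field F] [NumberField F] {V : Lev F}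
    (f : ι → PTen V) (l : List ι) : pten (l.map f).prod = (l.map fun i => pten (f i)).prod := by
  rw [map_list_prod, List.map_map]
  rfl

omit [IsGalois K L] [NumberField K] in
theorem lT_eq (l : List (WPl τ U)) : lT l = pten (l.map tP).prod := by
  rw [pten_list]
  exact congrArg List.prod (List.map_congr_left fun (i : WPl τ U) _ => (pten_tP i).symm)

omit [IsGalois K L] in
theorem lTK_eq (hd : ∀ w : HeightOneSpectrum (𝓞 L), U.U w = GLO (vF w) →
    UK.U (under K w) = GLO (vF (under K w))) (l : List (WPl τ U)) :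
    lTK hd l = pten (l.map (tPK hd)).prod := by
  rw [pten_list]
  exact congrArg List.prod (List.map_congr_left fun (i : WPl τ U) _ => (pten_tPK hd i).symm)

end Words

section Geom

variable {K : Type} {L : Type*} [Field K] [Field L] [NumberField K] [NumberField L] [Algebra K L]
  [IsTotallyComplex K] [IsTotallyComplex L] [Unique (InfinitePlace K)] [IsGalois K L]
  {τ : L ≃ₐ[K] L} {U : Lev L} {UK : Lev K}

/-- **The geometric comparison for words in the letters.** -/
theorem exists_geom_word (hU : GStable (L ≃ₐ[K] L) U.U) (hB : ∀ v, BaseLevel (UK.U v) U.U)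
    {ζ : K} (hζ : IsPrimitiveRoot ζ 3) (hτ : Cyc3 τ) (h3 : Module.finrank K L = 3)
    {s : InfinitePlace K → InfinitePlace L} (hs : Xi.IsAbove (algebraMap K L) s)
    {c : Kˣ} {α : L} (hα : α ^ 3 = algebraMap K L c) (hL : IntermediateField.adjoin K {α} = ⊤)
    (k : Kinf L) {u : HeightOneSpectrum (𝓞 L)} (hu : τ • u ≠ u)
    (hIw : ∀ w : Above L (under K u), U.U w.1 = Iw (vF w.1))
    (hd : ∀ w : HeightOneSpectrum (𝓞 L), U.U w = GLO (vF w) →
      UK.U (under K w) = GLO (vF (under K w)))
    (hI : U.U u = Iw (vF u)) (hI' : UK.U (under K u) = Iw (vF (under K u)))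
    {κS : PTen U} {κS' : PTen UK} (hS : Trans hU hB τ κS κS')
    (hSu : ∀ w, under K w = under K u → κS.k w = 1) (hSu' : κS'.k (under K u) = 1)
    (hSg : ∀ w, U.U w = GLO (vF w) → κS.k w = 1)
    (hgood : ∀ v, LT.GoodAt c v (κS'.k v).ker) (l : List (WPl τ U)) :
    ∃ n₀ : ℕ, ∀ n ≥ n₀, GeomEq hU τ s k
      (lT l * (uAt hI (datum u) ^ n * pten κS))
      (lTK hd l * (uAt hI' (datum (under K u)) ^ n * pten κS')) := by
  have h3' : IsThree τ := isThree_of_cyc3 hτ
  rw [lT_eq, lTK_eq]
  refine exists_geom_uWord hU hB hζ hτ h3 h3'.ne_one hs hα hL k hu (fun w => (hIw w).le) hI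
    (datum u) hI' (datum (under K u)) (fun w hw => ?_) hSu ?_ hSu'
    (fun n => trans_word h3 h3' hu hd hI hI' hS hSu hSg l n) fun n v => ?_
  · refine prod_k_eq_one l fun i _ => PTen.at_of_ne (fun h => ?_) _
    rw [h] at hw
    exact under_ne_of_glo i.1.2 hd hI' hw.symm
  · exact prod_k_eq_one l fun i _ => PTen.at_of_ne (under_ne_of_glo i.1.2 hd hI') _
  · obtain ⟨w₀⟩ : Nonempty (Above L v) := inferInstance
    have hG : Nat.card (L ≃ₐ[K] L) = 3 := by rw [IsGalois.card_aut_eq_finrank, h3]
    rcases split_or_nonSplit hG w₀ with hw | hw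
    · exact Or.inl (mem_locPow_of_split hα hw)
    · have hne : ∀ w : HeightOneSpectrum (𝓞 L), τ • w ≠ w → v ≠ under K w := by
        rintro w hw1 rfl
        have h1 : abv K w = w₀ := above_eq hw (abv K w)
        have h2 : τ ∈ MulAction.stabilizer (L ≃ₐ[K] L) w₀.1 := by
          rw [hw]
          exact Subgroup.mem_top _
        rw [← h1] at h2
        exact hw1 h2
      have h4 : (l.map (tPK hd)).prod.k v = 1 :=
        prod_k_eq_one l fun i _ => PTen.at_of_ne (hne i.1.1 i.2) _
      rw [uWord_k_of_ne hI' _ _ _ n (hne u hu), h4, one_mul]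
      exact hgood v

/-- the places over `u 0` -/
theorem SetL_iw_above (X : SetL τ U) (hτ : IsThree τ)
    (w : Above L (under K (X.u 0))) : U.U w.1 = Iw (vF w.1) := by
  obtain ⟨g, hg⟩ := exists_smul_above (K := K) (G := L ≃ₐ[K] L) (abv K (X.u 0)) w
  change g • X.u 0 = w.1 at hg
  have h1 : τ • X.u 0 = X.u 1 := X.step 0
  have h2 : τ • X.u 1 = X.u 2 := X.step 1
  rcases hτ.all g with rfl | rfl | rfl
  · rw [← hg, one_smul]
    exact X.iw 0
  · rw [← hg, h1]
    exact X.iw 1
  · rw [← hg, mul_smul, h1, h2]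
    exact X.iw 2

theorem SetL_ne (X : SetL τ U) : τ • X.u 0 ≠ X.u 0 := by
  rw [X.step 0]
  exact fun h => absurd (X.inj h) (by decide)

/-- **The geometric comparison for words in the letters**, in the language of `Desc.descent`. -/
theorem exists_geom_set (X : SetL τ U) (Y : SetK UK) (hB : ∀ v, BaseLevel (UK.U v) U.U)
    {ζ : K} (hζ : IsPrimitiveRoot ζ 3) (hτ : Cyc3 τ) (h3 : Module.finrank K L = 3)
    {s : InfinitePlace K → InfinitePlace L} (hs : Xi.IsAbove (algebraMap K L) s)
    {c : Kˣ} {α : L} (hα : α ^ 3 = algebraMap K L c) (hL : IntermediateField.adjoin K {α} = ⊤)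
    (k : Kinf L) (hd : ∀ w : HeightOneSpectrum (𝓞 L), U.U w = GLO (vF w) →
      UK.U (under K w) = GLO (vF (under K w)))
    {κS : PTen U} {κS' : PTen UK} (hS : Trans X.hU hB τ κS κS')
    (hSu : ∀ w, under K w = under K (X.u 0) → κS.k w = 1)
    (hSu' : κS'.k (under K (X.u 0)) = 1) (hSg : ∀ w, U.U w = GLO (vF w) → κS.k w = 1)
    (hgood : ∀ v, LT.GoodAt c v (κS'.k v).ker) (hYu : Y.u = under K (X.u 0))
    (hXs : X.s = pten κS) (hYs : Y.s = pten κS') (l : List (WPl τ U)) :
    ∃ n₀ : ℕ, ∀ n ≥ n₀, GeomEq X.hU τ s k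
      (lT l * (uAt (X.iw 0) (datum (X.u 0)) ^ n * X.s))
      (lTK hd l * (uAt Y.iw (datum Y.u) ^ n * Y.s)) := by
  obtain ⟨u', iw', s', h1, h2⟩ := Y
  dsimp only at hYu hYs
  subst hYu hYs
  rw [hXs]
  exact exists_geom_word X.hU hB hζ hτ h3 hs hα hL k (SetL_ne X)
    (SetL_iw_above X (isThree_of_cyc3 hτ)) hd (X.iw 0) iw' hS hSu hSu' hSg hgood l

end Geom

end Fermat.Agent.LT.B8

end
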