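import Fermat.Agent.LT.Desc.SetInst
import Fermat.Agent.LT.B8.GeomWord

/-!
# The geometric comparison for the symbols of `Desc.descent`

* `symL_snd`, `symK_snd`: the Hecke component of the symbol of a word;
* `exists_geom_sym`: the geometric comparison for the symbols of words;
* `exists_geom_std`: the same for the standard levels.
-/

set_option autoImplicit false
set_option linter.unusedSectionVars false

open Matrix NumberField IsDedekindDomain
open scoped WithZero Pointwise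

noncomputable section

namespace Fermat.Agent.LT.B8

open Fermat.Agent.CFT.SUnits Fermat.Agent.LT.Ext Fermat.Agent.LT.Lvl Fermat.Agent.LT.HK
open Fermat.Agent.LT.Iwa Fermat.Agent.LT.Kap Fermat.Agent.LT.Tr Fermat.Agent.LT.Desc
open Fermat.Agent.LT.B7

section Sym

variable {K L : Type*} [Field K] [NumberField K] [Field L] [NumberField L] [Algebra K L]
  {τ : L ≃ₐ[K] L} {U : Lev L} {UK : Lev K}
  {𝒦 𝒦' : Type*} [CommSemigroup 𝒦] [CommSemigroup 𝒦'] {𝒦₀ 𝒦₀' : Type*}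

theorem symL_snd (X : SetL τ U) (k : 𝒦₀ → 𝒦) (l : List (WPl τ U ⊕ 𝒦₀)) :
    (symL X k l).2 = lT (l.filterMap Sum.getLeft?) := by
  induction l with
  | nil => rfl
  | cons i l ih =>
    have h1 : (symL X k (i :: l)).2 = (X.lett.sym k (aL i)).2 * (symL X k l).2 := rfl
    rw [h1, ih]
    rcases i with i | x
    · rfl
    · exact one_mul _

theorem symK_snd (Y : SetK UK) (k : 𝒦₀' → 𝒦') (q : ℝ)
    (hd : ∀ w : HeightOneSpectrum (𝓞 L), U.U w = GLO (vF w) →
      UK.U (under K w) = GLO (vF (under K w))) (tI : 𝒦₀ → 𝒦₀') (l : List (WPl τ U ⊕ 𝒦₀)) :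
    (symK Y k q hd tI l).2 = lTK hd (l.filterMap Sum.getLeft?) := by
  induction l with
  | nil => rfl
  | cons i l ih =>
    have h1 : (symK Y k q hd tI (i :: l)).2 =
      ((Y.lett q).sym k (aK hd tI i)).2 * (symK Y k q hd tI l).2 := rfl
    rw [h1, ih]
    rcases i with i | x
    · rfl
    · exact one_mul _

end Sym

section Geom

variable {K : Type} {L : Type*} [Field K] [Field L] [NumberField K] [NumberField L] [Algebra K L]
  [IsTotallyComplex K] [IsTotallyComplex L] [Unique (InfinitePlace K)] [IsGalois K L]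
  {τ : L ≃ₐ[K] L} {U : Lev L} {UK : Lev K}
  {𝒦 𝒦' : Type*} [CommSemigroup 𝒦] [CommSemigroup 𝒦'] {𝒦₀ 𝒦₀' : Type*}

/-- **The geometric comparison for the symbols of words.** -/
theorem exists_geom_sym (X : SetL τ U) (Y : SetK UK) (hB : ∀ v, BaseLevel (UK.U v) U.U)
    {ζ : K} (hζ : IsPrimitiveRoot ζ 3) (hτ : Cyc3 τ) (h3 : Module.finrank K L = 3)
    {s : InfinitePlace K → InfinitePlace L} (hs : Xi.IsAbove (algebraMap K L) s)
    {c : Kˣ} {α : L} (hα : α ^ 3 = algebraMap K L c) (hL : IntermediateField.adjoin K {α} = ⊤)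
    (hd : ∀ w : HeightOneSpectrum (𝓞 L), U.U w = GLO (vF w) →
      UK.U (under K w) = GLO (vF (under K w)))
    {κS : PTen U} {κS' : PTen UK} (hS : Trans X.hU hB τ κS κS')
    (hSu : ∀ w, under K w = under K (X.u 0) → κS.k w = 1)
    (hSu' : κS'.k (under K (X.u 0)) = 1) (hSg : ∀ w, U.U w = GLO (vF w) → κS.k w = 1)
    (hgood : ∀ v, LT.GoodAt c v (κS'.k v).ker) (hYu : Y.u = under K (X.u 0))
    (hXs : X.s = pten κS) (hYs : Y.s = pten κS') (kL : 𝒦₀ → 𝒦) (kK : 𝒦₀' → 𝒦') (q : ℝ)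
    (tI : 𝒦₀ → 𝒦₀') (k : Kinf L) (l : List (WPl τ U ⊕ 𝒦₀)) :
    ∃ n₀ : ℕ, ∀ n ≥ n₀, GeomEq X.hU τ s k
      ((symL X kL l).2 * (uAt (X.iw 0) (datum (X.u 0)) ^ n * X.s))
      ((symK Y kK q hd tI l).2 * (uAt Y.iw (datum Y.u) ^ n * Y.s)) := by
  rw [symL_snd, symK_snd]
  exact exists_geom_set X Y hB hζ hτ h3 hs hα hL k hd hS hSu hSu' hSg hgood hYu hXs hYs _

end Geom

section Std

variable {K : Type} {L : Type*} [Field K] [Field L] [NumberField K] [NumberField L] [Algebra K L]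
  [IsTotallyComplex K] [IsTotallyComplex L] [Unique (InfinitePlace K)] [IsGalois K L]
  {S : Finset (HeightOneSpectrum (𝓞 K))} {u : HeightOneSpectrum (𝓞 K)}
  {M : HeightOneSpectrum (𝓞 K) → ℕ} {τ : L ≃ₐ[K] L} {w₀ : HeightOneSpectrum (𝓞 L)}
  {T : ∀ w : aboveS L S, TyDat (w.1.adicCompletion L)}
  {𝒦 𝒦' : Type*} [CommSemigroup 𝒦] [CommSemigroup 𝒦'] {𝒦₀ 𝒦₀' : Type*}

/-- the kernel `s_V` is trivial at the places which are not bad. -/
theorem svT_k_of_notMem (h : LevOK (Lev.stdUp L S {u} M) T) {w : HeightOneSpectrum (𝓞 L)}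
    (hw : w ∉ aboveS L S) : (svT h).k w = 1 :=
  eV_of_notMem h hw

/-- **The geometric comparison for the standard levels.** -/
theorem exists_geom_std (h3 : IsThree τ) (hne : τ • w₀ ≠ w₀) (hu : under K w₀ = u) (huS : u ∉ S)
    (hM : ∀ v ∈ S, M v ≠ 0) (h : LevOK (Lev.stdUp L S {u} M) T)
    (κ' : PTen (Lev.std S {u} M)) (hκ : ∀ v ∉ S, κ'.k v = 1)
    {ζ : K} (hζ : IsPrimitiveRoot ζ 3) (hτ : Cyc3 τ) (hfr : Module.finrank K L = 3)
    {s : InfinitePlace K → InfinitePlace L} (hs : Xi.IsAbove (algebraMap K L) s)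
    {c : Kˣ} {α : L} (hα : α ^ 3 = algebraMap K L c) (hL : IntermediateField.adjoin K {α} = ⊤)
    (hS : Trans (U := Lev.stdUp L S {u} M) gstable_stdUp baseLevel_std τ (svT h) κ')
    (hgood : ∀ v, LT.GoodAt c v (κ'.k v).ker) (kL : 𝒦₀ → 𝒦) (kK : 𝒦₀' → 𝒦') (q : ℝ)
    (tI : 𝒦₀ → 𝒦₀') (k : Kinf L) (l : List (WPl τ (Lev.stdUp L S {u} M) ⊕ 𝒦₀)) :
    ∃ n₀ : ℕ, ∀ n ≥ n₀, GeomEq (setL h3 hne hu huS hM h).hU τ s k
      ((symL (setL h3 hne hu huS hM h) kL l).2 *
        (uAt ((setL h3 hne hu huS hM h).iw 0) (datum ((setL h3 hne hu huS hM h).u 0)) ^ n *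
          (setL h3 hne hu huS hM h).s))
      ((symK (setK huS hM κ' hκ) kK q (good_down hM) tI l).2 *
        (uAt (setK huS hM κ' hκ).iw (datum (setK huS hM κ' hκ).u) ^ n *
          (setK huS hM κ' hκ).s)) := by
  have hu0 : under K ((setL h3 hne hu huS hM h).u 0) = u := by
    rw [setL_u, pl3_zero, hu]
  refine exists_geom_sym (setL h3 hne hu huS hM h) (setK huS hM κ' hκ) baseLevel_std hζ hτ hfr hs
    hα hL (good_down hM) hS (fun w hw => ?_) ?_ (fun w hw => ?_) hgood ?_ ?_ rfl kL kK q tI k l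
  · refine svT_k_of_notMem h ?_
    rwa [mem_aboveS, hw, hu0]
  · rw [hu0]
    exact hκ u huS
  · exact svT_k_of_notMem h (notMem_of_good hM hw)
  · exact hu0.symm
  · rw [setL_s, pten_svT]

end Std

end Fermat.Agent.LT.B8

end
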