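import Fermat.Agent.LT.B8.Letters

/-!
# The image of a spherical / Iwahori letter at a split place

`w ∣ v` split, `baseE : K_v ≃+* L_w`, `vF w (baseE x) = vF v x`; `tLoc`, `eLoc`, `wLoc`, `uLoc`,
`cLoc` : the letters as elements of `LocH U w`; `img_tLoc`, ... : `img hB w hw (tLoc) = tLoc`.
-/

set_option autoImplicit false

noncomputable section

open IsDedekindDomain NumberField Function Set WithZero Matrix
open scoped WithZero Pointwise

namespace Fermat.Agent.LT.B8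

open Fermat.Agent.LT.Ext Fermat.Agent.LT.Lvl Fermat.Agent.LT.Dict Fermat.Agent.LT.HK
open Fermat.Agent.LT.Iwa

section Base

variable {K L : Type*} [Field K] [Field L] [NumberField K] [NumberField L] [Algebra K L]
  [IsGalois K L] {v : HeightOneSpectrum (𝓞 K)}

theorem ramE_eq_one (w : Above L v) (hw : MulAction.stabilizer (L ≃ₐ[K] L) w.1 = ⊥) :
    ramE v w.1 = 1 := by
  obtain ⟨y, hy⟩ := HeightOneSpectrum.valuedAdicCompletion_surjective L w.1 (exp (-1 : ℤ))
  obtain ⟨-, hs⟩ := bijective_ext_of_stabilizer (K := K) v w.1 (L ≃ₐ[K] L) hw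
  obtain ⟨x, rfl⟩ := hs y
  have h1 := valued_ext_liesOver v w.1 x
  rw [show vF w.1 ((compat_liesOver (K := K) (L := L) v w.1).ext x) = exp (-1 : ℤ) from hy] at h1
  have hx : vF v x ≠ 0 := by
    intro h0
    rw [h0, zero_pow (ramE_ne_zero v w.1)] at h1
    exact exp_ne_zero h1
  have h2 : vF v x = exp (log (vF v x)) := (exp_log hx).symm
  rw [h2, ← WithZero.exp_nsmul, exp_inj] at h1
  have h3 : (ramE v w.1 : ℤ) ∣ 1 := ⟨-log (vF v x), by
    rw [nsmul_eq_mul] at h1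
    linarith⟩
  exact_mod_cast Int.eq_one_of_dvd_one (by positivity) h3

/-- the isomorphism `K_v ≃ L_w` at a split place -/
def baseE (w : Above L v) (hw : MulAction.stabilizer (L ≃ₐ[K] L) w.1 = ⊥) :
    v.adicCompletion K ≃+* w.1.adicCompletion L :=
  RingEquiv.ofBijective _ (bijective_ext_of_stabilizer (K := K) v w.1 (L ≃ₐ[K] L) hw)

theorem vF_baseE (w : Above L v) (hw : MulAction.stabilizer (L ≃ₐ[K] L) w.1 = ⊥)
    (x : v.adicCompletion K) : vF w.1 (baseE w hw x) = vF v x :=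
  (valued_ext_liesOver v w.1 x).trans (by rw [ramE_eq_one w hw, pow_one])

theorem gf_baseE (w : Above L v) (hw : MulAction.stabilizer (L ≃ₐ[K] L) w.1 = ⊥)
    (x : GL (Fin 2) (v.adicCompletion K)) : gf (baseE w hw) x = glBase v w.1 x := by
  apply Units.ext
  ext i j
  rfl

end Base

section Img

variable {K L : Type*} [Field K] [Field L] [NumberField K] [NumberField L] [Algebra K L]
  [IsGalois K L] {U : Lev L} {UK : Lev K} (hB : ∀ v, BaseLevel (UK.U v) U.U)
  {v : HeightOneSpectrum (𝓞 K)} (w : Above L v)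
  (hw : MulAction.stabilizer (L ≃ₐ[K] L) w.1 = ⊥)

/-- **The image of a kernel given on the coset space of a standard subgroup.** -/
theorem img_castHK {Hv : Subgroup (GL (Fin 2) (v.adicCompletion K))}
    {Hw : Subgroup (GL (Fin 2) (w.1.adicCompletion L))} (hL : U.U w.1 = Hw) (hK : UK.U v = Hv)
    (a : HK (GL (Fin 2) (w.1.adicCompletion L)) (Cos Hw))
    (b : HK (GL (Fin 2) (v.adicCompletion K)) (Cos Hv))
    (hab : ∀ φ : Cos Hv → Cos Hw, IsLift (baseE w hw) φ →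
      ∀ x y, a.ker (φ x) (φ y) = b.ker x y) :
    img hB w hw (castHK hL.symm a) = castHK hK.symm b := by
  subst hL hK
  rw [castHK_rfl, castHK_rfl]
  ext x y
  rw [img, hkBase, ker_map]
  exact hab (dvBaseEquiv (hB v) w hw) (fun g => by rw [gf_baseE]; rfl) x y

section Std

variable (hL : U.U w.1 = Iw (vF w.1)) (hK : UK.U v = Iw (vF v)) (𝔡 : Datum (vF w.1))
  (𝔡' : Datum (vF v))

theorem img_eH : img hB w hw (castHK hL.symm 𝔡.eH) = castHK hK.symm 𝔡'.eH :=
  img_castHK hB w hw hL hK _ _ fun _ hφ x y =>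
    Datum.ker_eH_lift 𝔡' (vF_baseE w hw) 𝔡 hφ x y

theorem img_wH : img hB w hw (castHK hL.symm 𝔡.wH) = castHK hK.symm 𝔡'.wH :=
  img_castHK hB w hw hL hK _ _ fun _ hφ x y =>
    Datum.ker_wH_lift 𝔡' (vF_baseE w hw) 𝔡 hφ x y

include hw in
theorem q_eq_q_base : 𝔡.q = 𝔡'.q := Datum.q_lift (f := baseE w hw) (vF_baseE w hw) 𝔡' 𝔡

theorem img_uH : img hB w hw (castHK hL.symm 𝔡.uH) = castHK hK.symm 𝔡'.uH := by
  rw [Datum.uH, Datum.uH, Datum.map_opU (castHK hL.symm), Datum.map_opU (img hB w hw),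
    Datum.map_opU (castHK hK.symm), img_eH hB w hw hL hK 𝔡 𝔡', img_wH hB w hw hL hK 𝔡 𝔡',
    q_eq_q_base w hw 𝔡 𝔡']

theorem img_cH : img hB w hw (castHK hL.symm 𝔡.cH) = castHK hK.symm 𝔡'.cH := by
  rw [Datum.cH, Datum.cH, Datum.map_opC (castHK hL.symm), Datum.map_opC (img hB w hw),
    Datum.map_opC (castHK hK.symm), img_eH hB w hw hL hK 𝔡 𝔡', img_wH hB w hw hL hK 𝔡 𝔡',
    q_eq_q_base w hw 𝔡 𝔡']

theorem img_tH (hL : U.U w.1 = GLO (vF w.1)) (hK : UK.U v = GLO (vF v)) :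
    img hB w hw (castHK hL.symm 𝔡.tH) = castHK hK.symm 𝔡'.tH :=
  img_castHK hB w hw hL hK _ _ fun _ hφ x y =>
    Datum.ker_tH_lift 𝔡' (vF_baseE w hw) 𝔡 hφ x y

end Std

end Img

end Fermat.Agent.LT.B8

end
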