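import Fermat.Agent.LT.B8.Pure
import Fermat.Agent.LT.LevDown

/-!
# Letters at split places

* `TransAt.congr`, `tr3_at_mul`, `tr3_mul_at`, `Trans.at_mul`, `Trans.mul_at`;
* `Letter`, `Trans.list_mul` : words in letters at split places;
* `ramE_eq_one`, `baseRingEquiv` : the local isomorphism at a split place;
* `img_cast` and `img_tLoc`, `img_eLoc`, `img_wLoc`, `img_uLoc`, `img_cLoc`.
-/

set_option autoImplicit false

noncomputable section

open IsDedekindDomain NumberField Function Set WithZero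
open scoped WithZero Pointwise

namespace Fermat.Agent.LT.B8

open Fermat.Agent.LT.Ext Fermat.Agent.LT.Lvl Fermat.Agent.LT.Dict Fermat.Agent.LT.HK
open Fermat.Agent.CFT.SUnits (under_eq_iff)

section Letters

variable {K L : Type*} [Field K] [Field L] [NumberField K] [NumberField L] [Algebra K L]
  [IsGalois K L] {U : Lev L} {hU : GStable (L ≃ₐ[K] L) U.U} {UK : Lev K}
  {hB : ∀ v, BaseLevel (UK.U v) U.U} {τ : L ≃ₐ[K] L}

theorem tr3_congr {v : HeightOneSpectrum (𝓞 K)} {w₀ : Above L v}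
    {hw : MulAction.stabilizer (L ≃ₐ[K] L) w₀.1 = ⊥} {κ κ₁ : PTen U}
    (h : ∀ w : Above L v, κ.k w.1 = κ₁.k w.1) : tr3 hB τ w₀ hw κ = tr3 hB τ w₀ hw κ₁ := by
  rw [tr3, tr3, h, h, h]

/-- The transfer relation at `v` depends only on the places over `v`. -/
theorem TransAt.congr {v : HeightOneSpectrum (𝓞 K)} {κ κ₁ : PTen U} {b : LocH UK v}
    (h : TransAt hU hB τ v κ b) (hκ : ∀ w : Above L v, κ.k w.1 = κ₁.k w.1) :
    TransAt hU hB τ v κ₁ b := by
  cases h with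
  | split w₀ hw hb => exact .split w₀ hw (hb.trans (tr3_congr hκ))
  | unit w₀ hw he hL hK h1 hb => exact .unit w₀ hw he hL hK ((hκ w₀).symm.trans h1) hb
  | bad w₀ hw h => exact .bad w₀ hw (by rw [← hκ w₀]; exact h)

theorem above_smul_inj {v : HeightOneSpectrum (𝓞 K)} {w₀ : Above L v}
    (hw : MulAction.stabilizer (L ≃ₐ[K] L) w₀.1 = ⊥) {g h : L ≃ₐ[K] L} :
    g • w₀ = h • w₀ ↔ g = h :=
  (aboveEquiv hw).injective.eq_iff

/-- the image of the letter `a` at `w₁` -/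
theorem img_at_self {v : HeightOneSpectrum (𝓞 K)} (w₁ : Above L v)
    (hw₁ : MulAction.stabilizer (L ≃ₐ[K] L) w₁.1 = ⊥) (a : LocH U w₁.1) :
    img hB w₁ hw₁ ((PTen.at w₁.1 a).k w₁.1) = img hB w₁ hw₁ a := by
  rw [PTen.at_self]

theorem img_at_of_ne {v : HeightOneSpectrum (𝓞 K)} {w₁ w : Above L v}
    (hw : MulAction.stabilizer (L ≃ₐ[K] L) w.1 = ⊥) (a : LocH U w₁.1) (h : w ≠ w₁) :
    img hB w hw ((PTen.at w₁.1 a).k w.1) = 1 := by
  rw [PTen.at_of_ne (fun h' => h (Subtype.ext h')), map_one]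

/-- **One letter at a split place.** -/
theorem tr3_at (h3 : IsThree τ) {v : HeightOneSpectrum (𝓞 K)} {w₀ : Above L v}
    (hw : MulAction.stabilizer (L ≃ₐ[K] L) w₀.1 = ⊥) (w₁ : Above L v)
    (hw₁ : MulAction.stabilizer (L ≃ₐ[K] L) w₁.1 = ⊥) (a : LocH U w₁.1) :
    tr3 hB τ w₀ hw (PTen.at w₁.1 a) = img hB w₁ hw₁ a := by
  obtain ⟨g, hg⟩ : ∃ g : L ≃ₐ[K] L, g • w₀ = w₁ := (aboveEquiv hw).surjective w₁
  subst hg
  have h1 : ∀ g h : L ≃ₐ[K] L, g ≠ h → g • w₀ ≠ h • w₀ := fun g h hne h' =>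
    hne ((above_smul_inj hw).mp h')
  have e1 : (1 : L ≃ₐ[K] L) ≠ τ⁻¹ := fun h => h3.inv_ne_one h.symm
  have e2 : (1 : L ≃ₐ[K] L) ≠ τ⁻¹ * τ⁻¹ := by
    rw [h3.inv_mul_inv]
    exact fun h => h3.ne_one h.symm
  have e3 : τ⁻¹ ≠ τ⁻¹ * τ⁻¹ := by
    rw [h3.inv_mul_inv]
    exact fun h => h3.inv_ne_self h.symm
  rw [tr3]
  rcases h3.cases g with rfl | rfl | rfl
  · rw [img_at_self, img_at_of_ne _ _ (h1 _ _ e1.symm), img_at_of_ne _ _ (h1 _ _ e2.symm),
      mul_one, mul_one]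
  · rw [img_at_self, img_at_of_ne _ _ (h1 _ _ e1), img_at_of_ne _ _ (h1 _ _ e3.symm),
      mul_one, one_mul]
  · rw [img_at_self, img_at_of_ne _ _ (h1 _ _ e2), img_at_of_ne _ _ (h1 _ _ e3),
      one_mul, one_mul]

/-- If everything commutes the transfer at a split place is multiplicative. -/
theorem tr3_mul {v : HeightOneSpectrum (𝓞 K)} {w₀ : Above L v}
    (hw : MulAction.stabilizer (L ≃ₐ[K] L) w₀.1 = ⊥) {κ κ₁ : PTen U}
    (hc : ∀ (w w' : Above L v) (hw : MulAction.stabilizer (L ≃ₐ[K] L) w.1 = ⊥)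
      (hw' : MulAction.stabilizer (L ≃ₐ[K] L) w'.1 = ⊥), w ≠ w' →
      Commute (img hB w hw (κ.k w.1)) (img hB w' hw' (κ₁.k w'.1)))
    (h3 : IsThree τ) :
    tr3 hB τ w₀ hw (κ * κ₁) = tr3 hB τ w₀ hw κ * tr3 hB τ w₀ hw κ₁ := by
  have h1 : ∀ g h : L ≃ₐ[K] L, g ≠ h → g • w₀ ≠ h • w₀ := fun g h hne h' =>
    hne ((above_smul_inj hw).mp h')
  have e1 : (1 : L ≃ₐ[K] L) ≠ τ⁻¹ := fun h => h3.inv_ne_one h.symm
  have e2 : (1 : L ≃ₐ[K] L) ≠ τ⁻¹ * τ⁻¹ := by
    rw [h3.inv_mul_inv]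
    exact fun h => h3.ne_one h.symm
  have e3 : τ⁻¹ ≠ τ⁻¹ * τ⁻¹ := by
    rw [h3.inv_mul_inv]
    exact fun h => h3.inv_ne_self h.symm
  simp only [tr3, PTen.mul_k, map_mul]
  have c1 := hc _ _ (stabilizer_above_eq_bot hw _) (stabilizer_above_eq_bot hw _)
    (h1 _ _ e1.symm)
  have c2 := hc _ _ (stabilizer_above_eq_bot hw _) (stabilizer_above_eq_bot hw _)
    (h1 _ _ e2.symm)
  have c3 := hc _ _ (stabilizer_above_eq_bot hw _) (stabilizer_above_eq_bot hw _)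
    (h1 _ _ e3.symm)
  have key : ∀ {R : Type _} [Monoid R] {x₀ x₁ x₂ y₀ y₁ y₂ : R}, Commute x₁ y₀ → Commute x₂ y₀ →
      Commute x₂ y₁ → x₀ * y₀ * (x₁ * y₁) * (x₂ * y₂) = x₀ * x₁ * x₂ * (y₀ * y₁ * y₂) := by
    intro R _ x₀ x₁ x₂ y₀ y₁ y₂ h10 h20 h21
    calc x₀ * y₀ * (x₁ * y₁) * (x₂ * y₂) = x₀ * (y₀ * x₁) * (y₁ * x₂) * y₂ := by
          simp only [mul_assoc]
      _ = x₀ * (x₁ * y₀) * (x₂ * y₁) * y₂ := by rw [h10.eq, h21.eq]
      _ = x₀ * x₁ * (y₀ * x₂) * y₁ * y₂ := by simp only [mul_assoc]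
      _ = x₀ * x₁ * (x₂ * y₀) * y₁ * y₂ := by rw [h20.eq]
      _ = _ := by simp only [mul_assoc]
  exact key c1 c2 c3

/-! ### The relation of letters -/

variable (hB τ) in
/-- The relation between a letter at a split place and its transfer. -/
structure LetAt (v : HeightOneSpectrum (𝓞 K)) (κ : PTen U) (b : LocH UK v) : Prop where
  split : ∀ (w₀ : Above L v) (hw : MulAction.stabilizer (L ≃ₐ[K] L) w₀.1 = ⊥),
    b = tr3 hB τ w₀ hw κ
  nonSplit : ∀ w₀ : Above L v, MulAction.stabilizer (L ≃ₐ[K] L) w₀.1 = ⊤ →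
    κ.k w₀.1 = 1 ∧ b = 1

variable (hB) in
/-- The components at two different places over the same split place commute. -/
def CrossComm (κ κ₁ : PTen U) : Prop :=
  ∀ (v : HeightOneSpectrum (𝓞 K)) (w w' : Above L v)
    (hw : MulAction.stabilizer (L ≃ₐ[K] L) w.1 = ⊥)
    (hw' : MulAction.stabilizer (L ≃ₐ[K] L) w'.1 = ⊥), w ≠ w' →
    Commute (img hB w hw (κ.k w.1)) (img hB w' hw' (κ₁.k w'.1))

theorem CrossComm.symm {κ κ₁ : PTen U} (h : CrossComm hB κ κ₁) : CrossComm hB κ₁ κ :=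
  fun v w w' hw hw' hne => (h v w' w hw' hw hne.symm).symm

theorem CrossComm.one_left (κ : PTen U) : CrossComm hB 1 κ := fun v w w' hw hw' _ => by
  rw [PTen.one_k, map_one]
  exact Commute.one_left _

theorem CrossComm.mul_left {κ κ₁ κ₂ : PTen U} (h : CrossComm hB κ κ₂)
    (h₁ : CrossComm hB κ₁ κ₂) : CrossComm hB (κ * κ₁) κ₂ := fun v w w' hw hw' hne => by
  rw [PTen.mul_k, map_mul]
  exact (h v w w' hw hw' hne).mul_left (h₁ v w w' hw hw' hne)

theorem CrossComm.mul_right {κ κ₁ κ₂ : PTen U} (h : CrossComm hB κ κ₁)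
    (h₁ : CrossComm hB κ κ₂) : CrossComm hB κ (κ₁ * κ₂) := (h.symm.mul_left h₁.symm).symm

theorem CrossComm.list_prod {ι : Type*} {f : ι → PTen U} {κ : PTen U}
    (l : List ι) (h : ∀ i ∈ l, CrossComm hB (f i) κ) : CrossComm hB (l.map f).prod κ := by
  induction l with
  | nil => exact CrossComm.one_left κ
  | cons i l ih =>
    rw [List.map_cons, List.prod_cons]
    exact (h i (by simp)).mul_left (ih fun j hj => h j (by simp [hj]))

theorem CrossComm.list_prod_right {ι : Type*} {f : ι → PTen U} {κ : PTen U}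
    (l : List ι) (h : ∀ i ∈ l, CrossComm hB κ (f i)) : CrossComm hB κ (l.map f).prod :=
  (CrossComm.list_prod l fun i hi => (h i hi).symm).symm

theorem tr3_one {v : HeightOneSpectrum (𝓞 K)} {w₀ : Above L v}
    (hw : MulAction.stabilizer (L ≃ₐ[K] L) w₀.1 = ⊥) :
    tr3 hB τ w₀ hw (1 : PTen U) = 1 := by
  rw [tr3, PTen.one_k, PTen.one_k, PTen.one_k, map_one, map_one, map_one, one_mul, one_mul]

theorem LetAt.one (v : HeightOneSpectrum (𝓞 K)) : LetAt hB τ v (1 : PTen U) (1 : LocH UK v) where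
  split _ hw := (tr3_one hw).symm
  nonSplit _ _ := ⟨rfl, rfl⟩

theorem LetAt.mul (h3 : IsThree τ) {v : HeightOneSpectrum (𝓞 K)} {κ κ₁ : PTen U}
    {b b₁ : LocH UK v} (h : LetAt hB τ v κ b) (h₁ : LetAt hB τ v κ₁ b₁)
    (hc : CrossComm hB κ κ₁) : LetAt hB τ v (κ * κ₁) (b * b₁) where
  split w₀ hw := by
    rw [tr3_mul hw (hc v) h3, ← h.split w₀ hw, ← h₁.split w₀ hw]
  nonSplit w₀ hw := by
    rw [PTen.mul_k, (h.nonSplit w₀ hw).1, (h₁.nonSplit w₀ hw).1, (h.nonSplit w₀ hw).2,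
      (h₁.nonSplit w₀ hw).2, one_mul, one_mul]
    exact ⟨rfl, rfl⟩

/-- **Multiplication by a letter on the left.** -/
theorem TransAt.let_mul (h3 : IsThree τ) {v : HeightOneSpectrum (𝓞 K)} {κ κ₁ : PTen U}
    {b b₁ : LocH UK v} (h : LetAt hB τ v κ b) (h₁ : TransAt hU hB τ v κ₁ b₁)
    (hc : CrossComm hB κ κ₁) : TransAt hU hB τ v (κ * κ₁) (b * b₁) := by
  cases h₁ with
  | split w₀ hw hb => exact .split w₀ hw (by rw [tr3_mul hw (hc v) h3, ← h.split w₀ hw, hb])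
  | unit w₀ hw he hL hK hκ hb =>
    refine .unit w₀ hw he hL hK ?_ ?_
    · rw [PTen.mul_k, (h.nonSplit w₀ hw).1, hκ, one_mul]
    · rw [(h.nonSplit w₀ hw).2, hb, one_mul]
  | bad w₀ hw h' =>
    refine .bad w₀ hw ?_
    rw [PTen.mul_k, (h.nonSplit w₀ hw).1, (h.nonSplit w₀ hw).2, one_mul, one_mul]
    exact h'

/-- **Multiplication by a letter on the right.** -/
theorem TransAt.mul_let (h3 : IsThree τ) {v : HeightOneSpectrum (𝓞 K)} {κ κ₁ : PTen U}
    {b b₁ : LocH UK v} (h : LetAt hB τ v κ b) (h₁ : TransAt hU hB τ v κ₁ b₁)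
    (hc : CrossComm hB κ₁ κ) : TransAt hU hB τ v (κ₁ * κ) (b₁ * b) := by
  cases h₁ with
  | split w₀ hw hb => exact .split w₀ hw (by rw [tr3_mul hw (hc v) h3, ← h.split w₀ hw, hb])
  | unit w₀ hw he hL hK hκ hb =>
    refine .unit w₀ hw he hL hK ?_ ?_
    · rw [PTen.mul_k, (h.nonSplit w₀ hw).1, hκ, one_mul]
    · rw [(h.nonSplit w₀ hw).2, hb, one_mul]
  | bad w₀ hw h' =>
    refine .bad w₀ hw ?_
    rw [PTen.mul_k, (h.nonSplit w₀ hw).1, (h.nonSplit w₀ hw).2, mul_one, mul_one]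
    exact h'

/-- **The letter `a` at the split place `w₁`.** -/
theorem letAt_at (h3 : IsThree τ) {v : HeightOneSpectrum (𝓞 K)} (w₁ : Above L v)
    (hw₁ : MulAction.stabilizer (L ≃ₐ[K] L) w₁.1 = ⊥) (a : LocH U w₁.1)
    (v' : HeightOneSpectrum (𝓞 K)) :
    LetAt hB τ v' (PTen.at w₁.1 a) ((PTen.at v (img hB w₁ hw₁ a)).k v') := by
  by_cases hv : v' = v
  · subst hv
    refine ⟨fun w₀ hw => ?_, fun w₀ hw => ?_⟩
    · rw [PTen.at_self, tr3_at h3 hw w₁ hw₁ a]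
    · exfalso
      have h1 : w₁ = w₀ := above_eq hw w₁
      rw [h1, hw] at hw₁
      have h2 : τ ∈ (⊤ : Subgroup (L ≃ₐ[K] L)) := Subgroup.mem_top τ
      rw [hw₁, Subgroup.mem_bot] at h2
      exact h3.ne_one h2
  · have h1 : ∀ w : Above L v', (PTen.at w₁.1 a).k w.1 = (1 : PTen U).k w.1 := by
      intro w
      refine PTen.at_of_ne (fun h => hv ?_) a
      rw [← (under_eq_iff K w.1 v').mpr w.2, ← (under_eq_iff K w₁.1 v).mpr w₁.2, h]
    rw [PTen.at_of_ne hv]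
    refine ⟨fun w₀ hw => ?_, fun w₀ hw => ⟨h1 w₀, rfl⟩⟩
    rw [tr3_congr h1, tr3_one]

/-- **Words in letters at split places.** -/
theorem Trans.list_mul (h3 : IsThree τ) {ι : Type*} {f : ι → PTen U} {f' : ι → PTen UK}
    {κ : PTen U} {κ' : PTen UK} (h : Trans hU hB τ κ κ') (l : List ι)
    (hf : ∀ i ∈ l, ∀ v, LetAt hB τ v (f i) ((f' i).k v))
    (hff : ∀ i ∈ l, ∀ j ∈ l, CrossComm hB (f i) (f j)) (hfκ : ∀ i ∈ l, CrossComm hB (f i) κ) :
    Trans hU hB τ ((l.map f).prod * κ) ((l.map f').prod * κ') := by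
  induction l with
  | nil => simpa using h
  | cons i l ih =>
    rw [List.map_cons, List.prod_cons, List.map_cons, List.prod_cons, mul_assoc, mul_assoc]
    intro v
    rw [PTen.mul_k]
    refine TransAt.let_mul h3 (hf i (by simp) v)
      (ih (fun j hj => hf j (by simp [hj])) (fun j hj k hk => hff j (by simp [hj]) k (by simp [hk]))
        (fun j hj => hfκ j (by simp [hj])) v) ?_
    exact (CrossComm.list_prod_right l fun j hj => hff i (by simp) j (by simp [hj])).mul_right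
      (hfκ i (by simp))

/-- **Existence of the transfer** of a pure tensor supported at the places over `S`. -/
theorem exists_trans {κ : PTen U} {S : Set (HeightOneSpectrum (𝓞 K))} (hS : S.Finite)
    (hκ : ∀ v, v ∉ S → ∀ w : Above L v, κ.k w.1 = 1)
    (h : ∀ v ∈ S, ∃ b : LocH UK v, TransAt hU hB τ v κ b)
    (h' : ∀ v, v ∉ S → ∀ w₀ : Above L v, MulAction.stabilizer (L ≃ₐ[K] L) w₀.1 = ⊥ ∨
      MulAction.stabilizer (L ≃ₐ[K] L) w₀.1 = ⊤ ∧ v.asIdeal.ramificationIdx' w₀.1.asIdeal = 1 ∧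
        U.U w₀.1 = GLO (Valued.v : Valuation (w₀.1.adicCompletion L) ℤᵐ⁰) ∧
        UK.U v = GLO (Valued.v : Valuation (v.adicCompletion K) ℤᵐ⁰)) :
    ∃ κ' : PTen UK, (∀ v, v ∉ S → κ'.k v = 1) ∧ Trans hU hB τ κ κ' := by
  classical
  choose b hb using h
  refine ⟨⟨fun v => if hv : v ∈ S then b v hv else 1, hS.subset fun v hv => ?_⟩, fun v hv => ?_,
    fun v => ?_⟩
  · by_contra h1
    exact hv (dif_neg h1)
  · exact dif_neg hv
  · by_cases hv : v ∈ S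
    · have h1 : (if hv : v ∈ S then b v hv else (1 : LocH UK v)) = b v hv := dif_pos hv
      change TransAt hU hB τ v κ (if hv : v ∈ S then b v hv else 1)
      rw [h1]
      exact hb v hv
    · have h1 : (if hv : v ∈ S then b v hv else (1 : LocH UK v)) = 1 := dif_neg hv
      change TransAt hU hB τ v κ (if hv : v ∈ S then b v hv else 1)
      rw [h1]
      refine TransAt.congr (κ := 1) ?_ fun w => (hκ v hv w).symm
      obtain ⟨w₀⟩ : Nonempty (Above L v) := inferInstance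
      rcases h' v hv w₀ with hw | ⟨hw, he, hL, hK⟩
      · exact .split w₀ hw (tr3_one hw).symm
      · exact .unit w₀ hw he hL hK rfl rfl

end Letters

end Fermat.Agent.LT.B8

end
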