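import Fermat.Agent.LT.B8.Defs
import Fermat.Agent.LT.TauNonSplit

/-!
# The local comparison at a place with one place above: reduction to the coset spaces

`isLocPush_of_local` : from a map `Dv U w₀ → Dv UK v`, equivariant under the centraliser of `g` in
`GL₂(K_v)`, to `IsLocPush` (and `IsLocPush₁`).
-/

set_option autoImplicit false

noncomputable section

open IsDedekindDomain NumberField Function Set Matrix

namespace Fermat.Agent.LT.B8

open Fermat.Agent.LT.Ext Fermat.Agent.LT.Lvl Fermat.Agent.LT.Near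

section NonSplit

variable {K L : Type*} [Field K] [Field L] [NumberField K] [NumberField L] [Algebra K L]
  {G : Type*} [Group G] [Finite G] [MulSemiringAction G L] [IsGaloisGroup G K L]
  {U : Lev L} (hU : GStable G U.U) (UK : Lev K) (τ : G)
  {v : HeightOneSpectrum (𝓞 K)} (δ : GL (Fin 2) L) (g : GL (Fin 2) K)

/-- a matrix over `K`, embedded in `GL₂(L_w)` in two ways -/
theorem gmap_gup (w₀ : Above L v) (t : GL (Fin 2) K) :
    gmap w₀.1 (gup L t) = glBase v w₀.1 (gmap v t) :=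
  (glBase_map v w₀.1 t).symm

/-- **Reduction to the coset spaces.** -/
theorem isLocPush_of_local {w₀ : Above L v} (hw : MulAction.stabilizer G w₀.1 = ⊤)
    {φ : DA U v → DA U v → ℂ} {φ₀ : Lvl.Dv U w₀.1 → Lvl.Dv U w₀.1 → ℂ}
    (hφ : ∀ d d', φ d d' = φ₀ (d w₀) (d' w₀)) {f : Lvl.Dv UK v → Lvl.Dv UK v → ℂ}
    {p₀ : Lvl.Dv U w₀.1 → Lvl.Dv UK v}
    (hequiv : ∀ t : GL (Fin 2) (v.adicCompletion K), t * gmap v g = gmap v g * t →
      ∀ x : Lvl.Dv U w₀.1, φ₀ x (gmap w₀.1 δ • dvMap hU (smul_eq_of_top hw τ) x) ≠ 0 →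
        p₀ (glBase v w₀.1 t • x) = t • p₀ x)
    (hfib : FibSum p₀ (fun x => φ₀ x (gmap w₀.1 δ • dvMap hU (smul_eq_of_top hw τ) x))
      (fun e => f e (gmap v g • e))) :
    IsLocPush hU UK τ v δ g φ f (fun d => p₀ (d w₀)) := by
  have htw : ∀ d : DA U v, tw hU τ v δ φ d =
      φ₀ (d w₀) (gmap w₀.1 δ • dvMap hU (smul_eq_of_top hw τ) (d w₀)) := by
    intro d
    rw [tw, hφ]
    congr 1
    change gmap w₀.1 δ • vAct hU τ d w₀ = _
    rw [vAct_apply_smul hU τ d (smul_eq_of_top hw τ)]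
  refine ⟨fun t ht d hd => ?_, ⟨fun b => ?_, fun b => ?_⟩⟩
  · have h1 : gmap v t * gmap v g = gmap v g * gmap v t := by rw [← map_mul, ht, map_mul]
    rw [htw] at hd
    have h2 := hequiv (gmap v t) h1 (d w₀) hd
    change p₀ (gmap w₀.1 (gup L t) • d w₀) = _
    rw [gmap_gup, h2]
    rfl
  · refine ((hfib.fin b).preimage (nonSplitEquiv U.U hw).injective.injOn).subset fun d hd => ?_
    obtain ⟨hd1, hd2⟩ := hd
    rw [htw] at hd1
    exact ⟨hd1, hd2⟩
  · rw [show f b (g • b) = f b (gmap v g • b) from rfl, ← hfib.sum b]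
    simp only [htw]
    exact finsum_comp_equiv (nonSplitEquiv U.U hw) (f := fun x =>
      @ite ℂ (p₀ x = b) (Classical.propDecidable _)
        (φ₀ x (gmap w₀.1 δ • dvMap hU (smul_eq_of_top hw τ) x)) 0)

/-- **Reduction to the coset spaces, with base points.** -/
theorem isLocPush₁_of_local {w₀ : Above L v} (hw : MulAction.stabilizer G w₀.1 = ⊤)
    {φ : DA U v → DA U v → ℂ} {φ₀ : Lvl.Dv U w₀.1 → Lvl.Dv U w₀.1 → ℂ}
    (hφ : ∀ d d', φ d d' = φ₀ (d w₀) (d' w₀)) {f : Lvl.Dv UK v → Lvl.Dv UK v → ℂ}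
    {p₀ : Lvl.Dv U w₀.1 → Lvl.Dv UK v}
    (hequiv : ∀ t : GL (Fin 2) (v.adicCompletion K), t * gmap v g = gmap v g * t →
      ∀ x : Lvl.Dv U w₀.1, φ₀ x (gmap w₀.1 δ • dvMap hU (smul_eq_of_top hw τ) x) ≠ 0 →
        p₀ (glBase v w₀.1 t • x) = t • p₀ x)
    (hfib : FibSum p₀ (fun x => φ₀ x (gmap w₀.1 δ • dvMap hU (smul_eq_of_top hw τ) x))
      (fun e => f e (gmap v g • e)))
    (hbase : p₀ (base U w₀.1) = base UK v)
    (hval : φ₀ (base U w₀.1) (gmap w₀.1 δ • dvMap hU (smul_eq_of_top hw τ) (base U w₀.1)) = 1)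
    (heq : ∀ x, φ₀ x (gmap w₀.1 δ • dvMap hU (smul_eq_of_top hw τ) x) ≠ 0 →
      p₀ x = base UK v → x = base U w₀.1) :
    IsLocPush₁ hU UK τ v δ g φ f (fun d => p₀ (d w₀)) where
  toIsLocPush := isLocPush_of_local hU UK τ δ g hw hφ hequiv hfib
  map_base := hbase
  val_base := by
    rw [tw, hφ]
    change φ₀ (base U w₀.1) (gmap w₀.1 δ • vAct hU τ (baseA U v) w₀) = 1
    rw [vAct_apply_smul hU τ _ (smul_eq_of_top hw τ)]
    exact hval
  eq_base := fun d hd hp => by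
    have h1 : φ₀ (d w₀) (gmap w₀.1 δ • dvMap hU (smul_eq_of_top hw τ) (d w₀)) ≠ 0 := by
      rw [tw, hφ] at hd
      change φ₀ (d w₀) (gmap w₀.1 δ • vAct hU τ d w₀) ≠ 0 at hd
      rwa [vAct_apply_smul hU τ _ (smul_eq_of_top hw τ)] at hd
    exact (nonSplitEquiv U.U hw).injective (heq (d w₀) h1 hp)

/-- the identity kernel -/
theorem idK_nonSplit {w₀ : Above L v} (hw : MulAction.stabilizer G w₀.1 = ⊤)
    (d d' : DA U v) : idK d d' = idK (d w₀) (d' w₀) := by
  classical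
  unfold idK
  by_cases h : d = d'
  · rw [if_pos h, if_pos (by rw [h])]
  · rw [if_neg h, if_neg (show ¬ d w₀ = d' w₀ from
      fun h' => h ((nonSplitEquiv U.U hw).injective h'))]

end NonSplit

end Fermat.Agent.LT.B8

end
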