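import Fermat.Agent.LT.B8.Bad
import Fermat.Agent.LT.B8.Pure
import Fermat.Agent.LT.Kappa.Lev
import Fermat.Agent.LT.Level.Std

/-!
# The transfer of `s_V`

`L / K` cubic cyclic, `S` a finite set of places of `K` containing all ramified ones, `T₀` a finite set
of split places, levels `Lev.stdUp L S T₀ M`, `Lev.std S T₀ M`, `T w` a pair `(V, χ)` for every
`w` over `S`, small enough.

* `svT h : PTen U`, `pten_svT : pten (svT h) = sV h`;
* `exists_trans_sV` : for `M` large there is `κ' : PTen UK` with `Trans (svT h) κ'`.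
-/

set_option autoImplicit false

open IsDedekindDomain NumberField Function Set Matrix WithZero
open scoped WithZero Topology

noncomputable section

namespace Fermat.Agent.LT.B8

open Fermat.Agent.LT.Ext Fermat.Agent.LT.Lvl Fermat.Agent.LT.Near Fermat.Agent.LT.HK
  Fermat.Agent.LT.Kap Fermat.Agent.CFT.SUnits

section SVT

variable {F : Type*} [Field F] [NumberField F] {S : Finset (HeightOneSpectrum (𝓞 F))}
  {U : Lev F} {T : ∀ v : S, TyDat (v.1.adicCompletion F)}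

/-- `s_V` as a pure tensor. -/
def svT (h : LevOK U T) : PTen U where
  k w := eV h w
  fin := S.finite_toSet.subset fun w hw => by
    by_contra h'
    exact hw (eV_of_notMem h h')

@[simp] theorem svT_k (h : LevOK U T) (w : HeightOneSpectrum (𝓞 F)) : (svT h).k w = eV h w := rfl

theorem pten_svT (h : LevOK U T) : pten (svT h) = sV h := by
  ext x y
  rw [ker_pten, ker_sV]
  rfl

end SVT

section Local

variable {K L : Type*} [Field K] [Field L] [NumberField K] [NumberField L] [Algebra K L]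
  [IsGalois K L] {U : Lev L} (hU : GStable (L ≃ₐ[K] L) U.U) {UK : Lev K}
  (hB : ∀ v, BaseLevel (UK.U v) U.U) {τ : L ≃ₐ[K] L}
  {SL : Finset (HeightOneSpectrum (𝓞 L))} {T : ∀ w : SL, TyDat (w.1.adicCompletion L)}

/-- **The transfer of `s_V` at a non-split place.** -/
theorem exists_transAt_nonSplit (h : LevOK U T) (hG : Nat.card (L ≃ₐ[K] L) = 3) (hτ : τ ≠ 1)
    {v : HeightOneSpectrum (𝓞 K)} {w₀ : Above L v}
    (hw : MulAction.stabilizer (L ≃ₐ[K] L) w₀.1 = ⊤) (hS : w₀.1 ∈ SL) {r m' m : ℕ}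
    (hr : r₀ w₀.1 ≤ r) (hT : (T ⟨w₀.1, hS⟩).Small (vF w₀.1) (exp (-(r : ℤ))))
    (hm' : Kn (vF w₀.1) (exp (-(m' : ℤ))) ≤ (T ⟨w₀.1, hS⟩).Vk)
    (hm : m₀ w₀.1 r m' ≤ m) (hL : U.U w₀.1 = Kn (vF w₀.1) (exp (-(m : ℤ)))) :
    ∃ b : LocH UK v, TransAt hU hB τ v (svT h) b ∧
      RelIn b.ker {k | Bd (Valued.v : Valuation (v.adicCompletion K) ℤᵐ⁰)
        ((k : Matrix (Fin 2) (Fin 2) (v.adicCompletion K)) - 1) (rK v)} := by
  obtain ⟨b, -, h2, h3⟩ := exists_bad_rep hU UK hG hτ hw hr hm hL (hB v w₀).symm (eV h w₀.1)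
    (fun x hx => mem_Kn_of_fn_eV h hS hT hx)
    (fun k hk x => fn_eV_mul_left h hS (hm' hk) x)
    (fun k hk x => fn_eV_mul_right h hS (hm' hk) x)
  exact ⟨b, .bad w₀ hw h3, h2⟩

/-- **The transfer at a place where the kernel is `1`.** -/
theorem transAt_one {κ : PTen U} {v : HeightOneSpectrum (𝓞 K)} (w₀ : Above L v)
    (hG : Nat.card (L ≃ₐ[K] L) = 3) (hκ : ∀ w : Above L v, κ.k w.1 = 1)
    (h : MulAction.stabilizer (L ≃ₐ[K] L) w₀.1 = ⊤ →
      v.asIdeal.ramificationIdx' w₀.1.asIdeal = 1 ∧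
      U.U w₀.1 = GLO (Valued.v : Valuation (w₀.1.adicCompletion L) ℤᵐ⁰) ∧
      UK.U v = GLO (Valued.v : Valuation (v.adicCompletion K) ℤᵐ⁰)) :
    TransAt hU hB τ v κ 1 := by
  rcases split_or_nonSplit hG w₀ with hw | hw
  · refine .split w₀ hw ?_
    rw [tr3, hκ, hκ, hκ, map_one, map_one, map_one, mul_one, mul_one]
  · obtain ⟨h1, h2, h3⟩ := h hw
    exact .unit w₀ hw h1 h2 h3 (hκ w₀) rfl

end Local

section Std

variable {K L : Type*} [Field K] [Field L] [NumberField K] [NumberField L] [Algebra K L]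
  [IsGalois K L] {S T₀ : Finset (HeightOneSpectrum (𝓞 K))} {M : HeightOneSpectrum (𝓞 K) → ℕ}

theorem baseLevel_std (v : HeightOneSpectrum (𝓞 K)) :
    BaseLevel ((Lev.std S T₀ M).U v) (Lev.stdUp L S T₀ M).U := by
  have hU : GStable (L ≃ₐ[K] L) (Lev.stdUp L S T₀ M).U := gstable_stdUp
  rw [← levDown_stdUp (K := K) (L := L) hU]
  exact baseLevel_levDown hU v

omit [NumberField K] [NumberField L] [IsGalois K L] in
theorem under_above {v : HeightOneSpectrum (𝓞 K)} (w : Above L v) : under K w.1 = v :=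
  (under_eq_iff K w.1 v).mpr w.2

/-- **The transfer of `s_V`.** -/
theorem exists_trans_sV (hG : Nat.card (L ≃ₐ[K] L) = 3) {τ : L ≃ₐ[K] L} (hτ : τ ≠ 1)
    (hunr : ∀ v ∉ S, ∀ w : Above L v, v.asIdeal.ramificationIdx' w.1.asIdeal = 1)
    (hsplit : ∀ v ∈ T₀, v ∉ S → ∀ w : Above L v, MulAction.stabilizer (L ≃ₐ[K] L) w.1 = ⊥)
    (T : ∀ w : aboveS L S, TyDat (w.1.adicCompletion L))
    (hT : ∀ w, (T w).Small (vF w.1) (exp (-(r₀ w.1 : ℤ))))
    (hα : ∀ w : aboveS L S, ((T w).α : Set (w.1.adicCompletion L)) ∈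
      𝓝 (0 : w.1.adicCompletion L))
    (hκ : ∀ w : aboveS L S, ((T w).κ : Set (w.1.adicCompletion L)) ∈
      𝓝 (0 : w.1.adicCompletion L))
    (hγ : ∀ w : aboveS L S, ((T w).γ : Set (w.1.adicCompletion L)) ∈
      𝓝 (0 : w.1.adicCompletion L)) :
    ∃ M₀ : HeightOneSpectrum (𝓞 K) → ℕ, ∀ M : HeightOneSpectrum (𝓞 K) → ℕ,
      (∀ v ∈ S, M₀ v ≤ M v) →
      ∃ (h : LevOK (Lev.stdUp L S T₀ M) T) (κ' : PTen (Lev.std S T₀ M)),
        Trans (U := Lev.stdUp L S T₀ M) gstable_stdUp baseLevel_std τ (svT h) κ' ∧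
        (∀ v ∉ S, κ'.k v = 1) ∧
        ∀ v ∈ S, ∀ w₀ : Above L v, MulAction.stabilizer (L ≃ₐ[K] L) w₀.1 = ⊤ →
          RelIn (κ'.k v).ker {k | Bd (Valued.v : Valuation (v.adicCompletion K) ℤᵐ⁰)
            ((k : Matrix (Fin 2) (Fin 2) (v.adicCompletion K)) - 1) (rK v)} := by
  classical
  choose m' hm' using fun w => TyDat.exists_Kn_le_Vk (T := T w) (hα w) (hκ w) (hγ w)
  have hM₀ : ∀ v : HeightOneSpectrum (𝓞 K), ∃ n : ℕ, ∀ w : Above L v,
      (if hw : w.1 ∈ aboveS L S then m₀ w.1 (r₀ w.1) (m' ⟨w.1, hw⟩) else 0) ≤ n := fun v =>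
    Finite.exists_le _
  choose M₀ hM₀ using hM₀
  refine ⟨M₀, fun M hM => ?_⟩
  have hmem : ∀ {v : HeightOneSpectrum (𝓞 K)}, v ∈ S → ∀ w : Above L v,
      w.1 ∈ aboveS L S := fun hv w => by
    rw [mem_aboveS, under_above w]
    exact hv
  -- the exponent at `w` is large
  have hbig : ∀ {v : HeightOneSpectrum (𝓞 K)} (hv : v ∈ S) (w : Above L v),
      m₀ w.1 (r₀ w.1) (m' ⟨w.1, hmem hv w⟩) ≤ ramE v w.1 * M v := by
    intro v hv w
    have h1 := hM₀ v w
    rw [dif_pos (hmem hv w)] at h1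
    have h2 : 1 ≤ ramE v w.1 := Nat.one_le_iff_ne_zero.mpr (ramE_ne_zero v w.1)
    calc _ ≤ M₀ v := h1
      _ ≤ M v := hM v hv
      _ = 1 * M v := (one_mul _).symm
      _ ≤ _ := Nat.mul_le_mul_right _ h2
  have hUS : ∀ {v : HeightOneSpectrum (𝓞 K)} (_ : v ∈ S) (w : Above L v),
      (Lev.stdUp L S T₀ M).U w.1 = Kn (vF w.1) (exp (-((ramE v w.1 * M v : ℕ) : ℤ))) := by
    intro v hv w
    have hu := under_above w
    have := Lev.stdUp_S (L := L) (S := S) (T := T₀) (M := M) (w := w.1) (by rw [hu]; exact hv)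
    rw [this, hu]
  have hle : ∀ {v : HeightOneSpectrum (𝓞 K)} (hv : v ∈ S) (w : Above L v),
      m' ⟨w.1, hmem hv w⟩ ≤ ramE v w.1 * M v := by
    intro v hv w
    refine le_trans ?_ (hbig hv w)
    unfold m₀
    have h1 : m' ⟨w.1, hmem hv w⟩ ≤ m' ⟨w.1, hmem hv w⟩ ⊔ 1 := le_sup_left
    have h2 : (m' ⟨w.1, hmem hv w⟩ ⊔ 1) + c3 w.1 ≤
      r₀ w.1 ⊔ ((m' ⟨w.1, hmem hv w⟩ ⊔ 1) + c3 w.1) := le_sup_right
    omega
  have h : LevOK (Lev.stdUp L S T₀ M) T := by
    refine ⟨fun w => ⟨_, hT w⟩, fun w => ?_⟩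
    have hv : under K w.1 ∈ S := (mem_aboveS S w.1).mp w.2
    have h1 := hUS hv ⟨w.1, liesOver_under K w.1⟩
    rw [h1]
    exact hm' w _ (hle hv ⟨w.1, liesOver_under K w.1⟩)
  have hex : ∀ v, ∃ b : LocH (Lev.std S T₀ M) v,
      TransAt (U := Lev.stdUp L S T₀ M) gstable_stdUp baseLevel_std τ v (svT h) b ∧
      (v ∉ S → b = 1) ∧ (v ∈ S → ∀ w₀ : Above L v,
        MulAction.stabilizer (L ≃ₐ[K] L) w₀.1 = ⊤ →
        RelIn b.ker {k | Bd (Valued.v : Valuation (v.adicCompletion K) ℤᵐ⁰)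
          ((k : Matrix (Fin 2) (Fin 2) (v.adicCompletion K)) - 1) (rK v)}) := by
    intro v
    obtain ⟨w⟩ := nonempty_above (L := L) (v := v)
    by_cases hv : v ∈ S
    · rcases split_or_nonSplit hG w with hw | hw
      · refine ⟨_, .split w hw rfl, fun h' => absurd hv h', fun _ w₀ hw₀ => ?_⟩
        -- a split place has no other place with full stabiliser
        exfalso
        have h1 := above_eq hw₀ w
        rw [h1, hw₀] at hw
        have h2 : τ ∈ (⊥ : Subgroup (L ≃ₐ[K] L)) := by rw [← hw]; trivial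
        exact hτ (Subgroup.mem_bot.mp h2)
      · obtain ⟨b, h1, h2⟩ := exists_transAt_nonSplit (U := Lev.stdUp L S T₀ M)
          gstable_stdUp baseLevel_std h hG hτ hw (hmem hv w) (r := r₀ w.1) le_rfl
          (hT ⟨w.1, hmem hv w⟩) (hm' ⟨w.1, hmem hv w⟩ _ le_rfl) (hbig hv w) (hUS hv w)
        exact ⟨b, h1, fun h' => absurd hv h', fun _ _ _ => h2⟩
    · have h1 : ∀ w' : Above L v, (svT h).k w'.1 = 1 := by
        intro w'
        rw [svT_k]
        refine eV_of_notMem h fun h' => hv ?_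
        rw [mem_aboveS, under_above w'] at h'
        exact h'
      have h2 : MulAction.stabilizer (L ≃ₐ[K] L) w.1 = ⊤ → v ∉ T₀ := by
        intro hw h'
        have h1 := hsplit v h' hv w
        rw [hw] at h1
        have h2 : τ ∈ (⊥ : Subgroup (L ≃ₐ[K] L)) := by rw [← h1]; trivial
        exact hτ (Subgroup.mem_bot.mp h2)
      exact ⟨1, transAt_one _ _ w hG h1 fun hw => ⟨hunr v hv w,
        Lev.stdUp_off (by rw [under_above w]; exact hv) (by rw [under_above w]; exact h2 hw),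
        Lev.std_off hv (h2 hw)⟩, fun _ => rfl, fun h' => absurd h' hv⟩
  choose b hb1 hb2 hb3 using hex
  refine ⟨h, ⟨b, S.finite_toSet.subset fun v hv => ?_⟩, hb1, hb2, hb3⟩
  by_contra h'
  exact hv (hb2 v h')

end Std

end Fermat.Agent.LT.B8

end
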