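import Fermat.Agent.LT.B8.Almost
import Fermat.Agent.LT.MatchSplit

/-!
# The local comparison at a place which splits

* `locPush_split` : `LocPush` for the product of three kernels at the places over `v` and their
  composition.
* `locPush₁_split` : `LocPush₁` at a good place which splits.
-/

set_option autoImplicit false

noncomputable section

open IsDedekindDomain NumberField Function Set
open scoped WithZero Pointwise

namespace Fermat.Agent.LT.B8

open Fermat.Agent.LT.Ext Fermat.Agent.LT.Lvl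

variable {K L : Type*} [Field K] [Field L] [NumberField K] [NumberField L] [Algebra K L]
  [IsGalois K L] {U : Lev L} (hU : GStable (L ≃ₐ[K] L) U.U) (UK : Lev K) {τ : L ≃ₐ[K] L}
  (h3 : IsThree τ) {v : HeightOneSpectrum (𝓞 K)} {w₀ : Above L v}
  (hw : MulAction.stabilizer (L ≃ₐ[K] L) w₀.1 = ⊥)
  (k : ∀ w : HeightOneSpectrum (𝓞 L), Lvl.Dv U w → Lvl.Dv U w → ℂ)

theorem pnm_of_gnm {δ : GL (Fin 2) L} {g : GL (Fin 2) K} (h : Dict.gnm τ δ = Dict.gup L g) :
    Dict.pnm τ (Dict.pmk δ) = Dict.pup L (Dict.pmk g) := by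
  rw [Dict.pnm_pmk, Dict.pup_pmk, h]

include h3 in
/-- The properties of the first component at a place which splits. -/
theorem isLocPush_split (hB : BaseLevel (UK.U v) U.U)
    (hf : ∀ (w : Above L v) (g : GL (Fin 2) (w.1.adicCompletion L)) x y,
      k w.1 (g • x) (g • y) = k w.1 x y)
    (hrow : ∀ (w : Above L v) x, (support (k w.1 x)).Finite) {δ : GL (Fin 2) L}
    {g : GL (Fin 2) K} (h : Dict.pnm τ (Dict.pmk δ) = Dict.pup L (Dict.pmk g)) :
    IsLocPush hU UK τ v δ g (kA k v) (kK k τ hB w₀) fun d => (splitThree h3 hB hw d).1 where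
  equiv t _ d _ := by
    have e1 := (Prod.ext_iff.mp (splitThree_vGl h3 hB hw (gup L t) d)).1
    refine e1.trans ?_
    rw [comp_base]
    rfl
  fib := by
    letI : MulAction (GL (Fin 2) K) (DA U v) := MulAction.compHom (DA U v) (Dict.gup L)
    exact (isPush_split_pg (T := GL (Fin 2) K) h3 hU hB hw
      (fun t => ⟨t, fun _ => rfl, fun _ => rfl⟩) hf hrow h).fibSum

include h3 hw in
/-- **The local comparison at a place which splits.** -/
theorem locPush_split (hB : BaseLevel (UK.U v) U.U)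
    (hf : ∀ (w : Above L v) (g : GL (Fin 2) (w.1.adicCompletion L)) x y,
      k w.1 (g • x) (g • y) = k w.1 x y)
    (hrow : ∀ (w : Above L v) x, (support (k w.1 x)).Finite) {δ : GL (Fin 2) L}
    {g : GL (Fin 2) K} (h : Rep τ δ g) :
    LocPush hU UK τ v δ g (kA k v) (kK k τ hB w₀) :=
  ⟨_, isLocPush_split hU UK h3 hw k hB hf hrow (pnm_of_gnm h.norm)⟩

variable {k}

omit [IsGalois K L] in
theorem kA_eq_idK (hk : ∀ w : Above L v, k w.1 = idK) : kA k v = idK := by
  classical
  funext x y
  rw [kA_eq_ite (f := k) (v := v) (fun w x y => by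
    rw [hk w, idK]
    split_ifs <;> rfl) x y, idK]

include hw in
theorem kK_eq_idK (hB : BaseLevel (UK.U v) U.U) (hk : ∀ w : Above L v, k w.1 = idK) :
    kK k τ hB w₀ = idK := by
  classical
  funext x y
  rw [kK_eq_ite hB hw (fun w x y => by
    rw [hk w, idK]
    split_ifs <;> rfl) x y, idK]
  split_ifs <;> rfl

variable {UK}

theorem GoodAt.baseLevel {φ : ∀ v : HeightOneSpectrum (𝓞 K), DA U v → DA U v → ℂ}
    {f : ∀ v : HeightOneSpectrum (𝓞 K), Dv UK v → Dv UK v → ℂ} {δ : GL (Fin 2) L}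
    {g : GL (Fin 2) K} (hg : GoodAt U UK φ f δ g v) : BaseLevel (UK.U v) U.U := by
  intro w
  rw [hg.levK, hg.levL w]
  ext x
  exact mem_GLO_glBase_iff v w.1 x

include h3 hw in
/-- **The local comparison at a good place which splits.** -/
theorem locPush₁_split {φ : ∀ v : HeightOneSpectrum (𝓞 K), DA U v → DA U v → ℂ}
    {f : ∀ v : HeightOneSpectrum (𝓞 K), Dv UK v → Dv UK v → ℂ} {δ : GL (Fin 2) L}
    {g : GL (Fin 2) K} (h : Rep τ δ g) (hg : GoodAt U UK φ f δ g v) :
    LocPush₁ hU UK τ v δ g (φ v) (f v) := by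
  classical
  have hB := hg.baseLevel
  let k : ∀ w : HeightOneSpectrum (𝓞 L), Lvl.Dv U w → Lvl.Dv U w → ℂ := fun w => idK
  have hk : ∀ w : Above L v, k w.1 = idK := fun w => rfl
  have hL : φ v = kA k v := by rw [hg.kerL, kA_eq_idK hk]
  have hK : f v = kK k τ hB w₀ := by rw [hg.kerK, kK_eq_idK UK hw hB hk]
  have hfix : ∀ w : Above L v, δ • Lvl.base U w.1 = Lvl.base U w.1 := by
    intro w
    show gmap w.1 δ • Cos.mk (U.U w.1) 1 = Cos.mk (U.U w.1) 1
    rw [Cos.smul_mk, mul_one]
    have h1 : gmap w.1 δ ∈ U.U w.1 := by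
      rw [hg.levL w]
      exact hg.del w
    rw [← one_mul (gmap w.1 δ), Cos.mk_mul h1]
  have hloc := isLocPush_split hU UK h3 hw k hB
    (fun w g x y => by
      show idK (g • x) (g • y) = idK x y
      unfold idK
      by_cases hxy : x = y
      · rw [if_pos hxy, if_pos (by rw [hxy])]
      · rw [if_neg hxy, if_neg fun h' => hxy (smul_left_cancel g h')])
    (fun w x => (Set.finite_singleton x).subset fun y hy => by
      by_contra hn
      exact hy (if_neg fun h' => hn h'.symm)) (pnm_of_gnm h.norm)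
  obtain ⟨hb1, hb2⟩ := split_base (f := k) (R := ℂ) h3 hU hB hw
    (fun w x y => by
      show idK x y = _
      unfold idK
      split_ifs <;> rfl) hfix
  rw [hL, hK]
  exact ⟨_, { hloc with
    map_base := splitThree_baseA h3 hB hw
    val_base := hb1
    eq_base := hb2 }⟩

end Fermat.Agent.LT.B8

end
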